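/-
PROJECT R (row 37 by S43), block L2 (helper4): THE ABSTRACT CORE OF THE INERTIAL TYPE.

Twin of main's `S31/Core` (`HeckeModule`, `exists_approx`) and `S34/UnipCore` (`trace_eq_two`,
`det_eq_cycChar`, `charpoly_eq_of_heckeModule`) WITH NEBENTYPUS.

`ρ : GaloisRepAdic T` with `charpoly ρ(τ) = X² - π(T_ℓ) X + ℓ π(dia τ)` at the Frobenius lifts `τ` at
`ℓ ∉ Σ`; a Hecke-Galois module `(Λ, r, θ, ε, dia)` with the Eichler-Shimura relation
`r(τ)² - θ(T_ℓ) r(τ) + θ(ℓ dia τ) = 0` (`dia : G_ℚ →* 𝕋` the diamond character, of finite level) and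
the faithfulness `hinj`.

* `exists_approxD` : every `g` satisfies `X² - θ(b) X + ε(g) θ(dia g)` on `Λ` modulo `I₀ⁿ` for a
  Hecke element `b` with `tr ρ(g) ≡ π b` modulo `𝔪ⁿ`;
* `sq_mem_of_cubic` : in a ring, modulo a two-sided ideal `S`: `x² - B x + δ ∈ S` and
  `(x - 1)² (x - δ) = 0` (`B`, `δ`, `x` commuting, `δ` invertible) give `(B - 1 - δ)² ∈ S`;
* `trace_sub_sq_eq_zero` : **the gate** `(r σ - 1)² (r σ - θ(dia σ)) = 0` on `Λ` and `ε σ = 1` give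
  `(tr ρ(σ) - 1 - π(dia σ))² = 0`;
* `det_eq` : `det ρ = cyclotomic character · π ∘ dia`;
* `charpoly_eq_of_heckeModuleD` : over a reduced `T`, for `σ` in an inertia group at `q ≠ p`:
  **`charpoly ρ(σ) = (X - 1)(X - π(dia σ))`**; `isUnipotentOnInertiaAt_of_heckeModuleD` when
  `dia` is trivial on these inertia groups;
* `sq_mul_mem_of_cubic_mul`, `trace_sub_sq_mul_eq_zero`, `charpoly_eq_of_heckeModuleD_mul` : the same
  when the gate only holds after multiplication by `θ m`, `π m` a unit (the gate on the `e_H`-part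
  of `Λ`, `m = ∑_{h ∈ H} ⟨h⟩`; the EVEN gate: `m = 1 + ⟨d'⟩`).
-/
import Mathlib
import Fermat.Agent.S31.Core
import Fermat.Agent.S34.UnipCore

set_option autoImplicit false
set_option linter.unusedSectionVars false
set_option linter.style.haveILetI false

namespace Fermat.Agent.S43.Loc2.Core

open Polynomial IsLocalRing
open Fermat.Agent.S31.Core
open Fermat.Agent.S30.Algebra.DetGalois (Density inv_mul_apply_eq frobSet)
open Fermat.Agent.S30.Algebra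

/-! ### Ring theory -/

section Ring

/-- the commutative subring generated by three commuting elements -/
theorem exists_comm_subring {E : Type*} [Ring E] (x a d : E) (hax : Commute a x)
    (hdx : Commute d x) (had : Commute a d) :
    ∃ K : Subring E, IsMulCommutative K ∧ x ∈ K ∧ a ∈ K ∧ d ∈ K := by
  have hs : ∀ u ∈ ({x, a, d} : Set E), ∀ v ∈ ({x, a, d} : Set E), u * v = v * u := by
    rintro u (rfl | rfl | rfl) v (rfl | rfl | rfl)
    · rfl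
    · exact hax.eq.symm
    · exact hdx.eq.symm
    · exact hax.eq
    · rfl
    · exact had.eq
    · exact hdx.eq
    · exact had.eq.symm
    · rfl
  exact ⟨Subring.closure ({x, a, d} : Set E), Subring.isMulCommutative_closure hs,
    Subring.subset_closure (by simp), Subring.subset_closure (by simp),
    Subring.subset_closure (by simp)⟩

open scoped IsMulCommutative in
/-- the Lucas relation for three commuting elements of a ring -/
theorem lucas_rel_of_commute {E : Type*} [Ring E] (x a d : E) (hax : Commute a x)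
    (hdx : Commute d x) (had : Commute a d) (h : x * x - a * x + d = 0) (j : ℕ) :
    x ^ j * x ^ j - lucas a d j * x ^ j + d ^ j = 0 := by
  obtain ⟨K, hK, hx, ha, hd⟩ := exists_comm_subring x a d hax hdx had
  haveI := hK
  let x' : K := ⟨x, hx⟩
  let a' : K := ⟨a, ha⟩
  let d' : K := ⟨d, hd⟩
  have h' : x' * x' - a' * x' + d' = 0 := Subtype.ext h
  have h2 := pow_mul_pow_sub_lucas x' a' d' h' j
  have hl : ((lucas a' d' j : K) : E) = lucas a d j := map_lucas K.subtype a' d' j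
  have h3 := congrArg K.subtype h2
  rw [← hl]
  simpa [x', a', d'] using h3

open scoped IsMulCommutative in
/-- **The cubic against the quadratic.**  Modulo a two-sided ideal `S`: if `x² - B x + δ ∈ S` and
`(x - 1)² (x - δ) = 0` with `B`, `δ`, `x` commuting and `δ` invertible, then `(B - 1 - δ)² ∈ S`.
(`δ t² = e W - c adj`, `t = B - 1 - δ`, `e` the quadratic, `c` the cubic,
`adj = (B - 1)(B - x) - δ`, `W = (x + B - 2 - δ) adj - t (B - 1)²`.) -/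
theorem sq_mem_of_cubic {E : Type*} [Ring E] {S : AddSubgroup E} (hS : IsTwoSided S)
    (x B δ δ' : E) (hBx : Commute B x) (hδx : Commute δ x) (hBδ : Commute B δ)
    (hδ' : δ' * δ = 1) (hq : x * x - B * x + δ ∈ S)
    (hc : (x - 1) * (x - 1) * (x - δ) = 0) : (B - 1 - δ) * (B - 1 - δ) ∈ S := by
  obtain ⟨K, hK, hx, hB, hδ⟩ := exists_comm_subring x B δ hBx hδx hBδ
  haveI := hK
  let x' : K := ⟨x, hx⟩
  let B' : K := ⟨B, hB⟩
  let d' : K := ⟨δ, hδ⟩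
  have key : d' * ((B' - 1 - d') * (B' - 1 - d')) =
      (x' * x' - B' * x' + d') * ((x' + B' - 2 - d') * ((B' - 1) * (B' - x') - d')
        - (B' - 1 - d') * ((B' - 1) * (B' - 1)))
      - (x' - 1) * (x' - 1) * (x' - d') * ((B' - 1) * (B' - x') - d') := by ring
  have key' := congrArg K.subtype key
  simp only [map_mul, map_sub, map_add, map_one, map_ofNat, Subring.coe_subtype, x', B', d']
    at key'
  rw [hc, zero_mul, sub_zero] at key'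
  have h1 : δ * ((B - 1 - δ) * (B - 1 - δ)) ∈ S := by
    rw [key']
    exact hS.mul_right _ hq
  have h2 : (B - 1 - δ) * (B - 1 - δ) = δ' * (δ * ((B - 1 - δ) * (B - 1 - δ))) := by
    rw [← mul_assoc, hδ', one_mul]
  rw [h2]
  exact hS.mul_left _ h1

/-- the commutative subring generated by four commuting elements -/
theorem exists_comm_subring₄ {E : Type*} [Ring E] (x a d e : E) (hax : Commute a x)
    (hdx : Commute d x) (had : Commute a d) (hex : Commute e x) (hea : Commute e a)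
    (hed : Commute e d) :
    ∃ K : Subring E, IsMulCommutative K ∧ x ∈ K ∧ a ∈ K ∧ d ∈ K ∧ e ∈ K := by
  have hs : ∀ u ∈ ({x, a, d, e} : Set E), ∀ v ∈ ({x, a, d, e} : Set E), u * v = v * u := by
    rintro u (rfl | rfl | rfl | rfl) v (rfl | rfl | rfl | rfl)
    · rfl
    · exact hax.eq.symm
    · exact hdx.eq.symm
    · exact hex.eq.symm
    · exact hax.eq
    · rfl
    · exact had.eq
    · exact hea.eq.symm
    · exact hdx.eq
    · exact had.eq.symm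
    · rfl
    · exact hed.eq.symm
    · exact hex.eq
    · exact hea.eq
    · exact hed.eq
    · rfl
  exact ⟨Subring.closure ({x, a, d, e} : Set E), Subring.isMulCommutative_closure hs,
    Subring.subset_closure (by simp), Subring.subset_closure (by simp),
    Subring.subset_closure (by simp), Subring.subset_closure (by simp)⟩

open scoped IsMulCommutative in
/-- **The cubic against the quadratic, with a multiplier.**  As `sq_mem_of_cubic`, when the cubic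
only holds after multiplication by an element `m` commuting with everything (think: `m` a multiple
of an idempotent `e_H`): `(x - 1)² (x - δ) m = 0` gives `(B - 1 - δ)² m ∈ S`. -/
theorem sq_mul_mem_of_cubic_mul {E : Type*} [Ring E] {S : AddSubgroup E} (hS : IsTwoSided S)
    (x B δ δ' m : E) (hBx : Commute B x) (hδx : Commute δ x) (hBδ : Commute B δ)
    (hmx : Commute m x) (hmB : Commute m B) (hmδ : Commute m δ)
    (hδ' : δ' * δ = 1) (hq : x * x - B * x + δ ∈ S)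
    (hc : (x - 1) * (x - 1) * (x - δ) * m = 0) : (B - 1 - δ) * (B - 1 - δ) * m ∈ S := by
  obtain ⟨K, hK, hx, hB, hδ, hm⟩ := exists_comm_subring₄ x B δ m hBx hδx hBδ hmx hmB hmδ
  haveI := hK
  let x' : K := ⟨x, hx⟩
  let B' : K := ⟨B, hB⟩
  let d' : K := ⟨δ, hδ⟩
  let m' : K := ⟨m, hm⟩
  have key : d' * ((B' - 1 - d') * (B' - 1 - d') * m') =
      (x' * x' - B' * x' + d') * (((x' + B' - 2 - d') * ((B' - 1) * (B' - x') - d')
        - (B' - 1 - d') * ((B' - 1) * (B' - 1))) * m')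
      - (x' - 1) * (x' - 1) * (x' - d') * m' * ((B' - 1) * (B' - x') - d') := by ring
  have key' := congrArg K.subtype key
  simp only [map_mul, map_sub, map_add, map_one, map_ofNat, Subring.coe_subtype, x', B', d', m']
    at key'
  rw [hc, zero_mul, sub_zero] at key'
  have h1 : δ * ((B - 1 - δ) * (B - 1 - δ) * m) ∈ S := by
    rw [key']
    exact hS.mul_right _ hq
  have h2 : (B - 1 - δ) * (B - 1 - δ) * m = δ' * (δ * ((B - 1 - δ) * (B - 1 - δ) * m)) := by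
    rw [← mul_assoc δ', hδ', one_mul]
  rw [h2]
  exact hS.mul_left _ h1

end Ring

/-! ### Hecke-Galois modules with nebentypus -/

section Main

variable {T : Type} [CommRing T] [IsLocalRing T]
variable {𝕋 : Type*} [CommRing 𝕋]
variable {R₀ : Type*} [CommRing R₀] {Λ : Type*} [AddCommGroup Λ] [Module R₀ Λ]

/-- A Hecke-Galois module with nebentypus: `Λ` with a continuous Galois action `r`, a Hecke action
`θ` commuting with Galois, the cyclotomic character `ε`, the diamond character `dia` (trivial on an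
open subgroup), and the Eichler-Shimura relation `τ² - T_ℓ τ + ℓ ⟨ℓ⟩ = 0` at Frobenius lifts outside
`Sg` (`⟨ℓ⟩ = dia τ`). -/
structure HeckeModuleD (Sg : Finset ℕ) (I₀ : Ideal R₀) (Tl : ℕ → 𝕋)
    (r : GQ →* Module.End R₀ Λ) (ε : GQ →* R₀) (dia : GQ →* 𝕋)
    (θ : 𝕋 →+* Module.End R₀ Λ) : Prop where
  cont_r : ∀ n : ℕ, ∃ L : IntermediateField ℚ Qbar, FiniteDimensional ℚ L ∧
    ∀ u : GQ, (∀ x ∈ L, u x = x) → ∀ v : Λ, r u v - v ∈ (I₀ ^ n) • (⊤ : Submodule R₀ Λ)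
  cont_ε : ∀ n : ℕ, ∃ L : IntermediateField ℚ Qbar, FiniteDimensional ℚ L ∧
    ∀ u : GQ, (∀ x ∈ L, u x = x) → ε u - 1 ∈ I₀ ^ n
  cont_dia : ∃ L : IntermediateField ℚ Qbar, FiniteDimensional ℚ L ∧
    ∀ u : GQ, (∀ x ∈ L, u x = x) → dia u = 1
  frob_ε : ∀ ℓ : ℕ, ℓ.Prime → ℓ ∉ Sg → ∀ A : ValuationSubring Qbar, A.LiesOverPrime ℓ →
    ∀ τ : GQ, A.IsFrobeniusAt τ ℓ → ε τ = (ℓ : R₀)
  comm : ∀ (t : 𝕋) (g : GQ), Commute (θ t) (r g)
  es : ∀ ℓ : ℕ, ℓ.Prime → ℓ ∉ Sg → ∀ A : ValuationSubring Qbar, A.LiesOverPrime ℓ →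
    ∀ τ : GQ, A.IsFrobeniusAt τ ℓ →
      r τ * r τ - θ (Tl ℓ) * r τ + θ ((ℓ : 𝕋) * dia τ) = 0

variable {Sg : Finset ℕ} {I₀ : Ideal R₀} {Tl : ℕ → 𝕋} {r : GQ →* Module.End R₀ Λ}
  {ε : GQ →* R₀} {dia : GQ →* 𝕋} {θ : 𝕋 →+* Module.End R₀ Λ}

/-- The characteristic polynomials of `ρ` at Frobenius lifts outside `Sg` are
`X² - π(T_ℓ) X + ℓ π(⟨ℓ⟩)`. -/
def FrobCharpolyViaD (ρ : GaloisRepAdic T) (Sg : Finset ℕ) (Tl : ℕ → 𝕋) (dia : GQ →* 𝕋)
    (π : 𝕋 →+* T) : Prop :=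
  ∀ ℓ : ℕ, ℓ.Prime → ℓ ∉ Sg → ∀ A : ValuationSubring Qbar, A.LiesOverPrime ℓ →
    ∀ τ : GQ, A.IsFrobeniusAt τ ℓ →
      LinearMap.charpoly (ρ.ρ τ) = X ^ 2 - C (π (Tl ℓ)) * X + C ((ℓ : T) * π (dia τ))

/-- **Approximation.** For every `g` and `n` there is a Hecke element `b` such that `g` satisfies
`X² - b X + ε(g) ⟨g⟩` on `Λ` modulo `I₀ⁿ` and `tr ρ(g) ≡ π b` modulo `𝔪ⁿ`. -/
theorem exists_approxD (hM : HeckeModuleD Sg I₀ Tl r ε dia θ) (ρ : GaloisRepAdic T)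
    (π : 𝕋 →+* T) (hcp : FrobCharpolyViaD ρ Sg Tl dia π) (hdens : Density Sg) (g : GQ) (n : ℕ) :
    ∃ b : 𝕋, r g * r g - θ b * r g + ε g • θ (dia g) ∈ smallEnd (V := Λ) (I₀ ^ n) ∧
      LinearMap.trace T ρ.V (ρ.ρ g) - π b ∈ maximalIdeal T ^ n := by
  obtain ⟨Lr, hLr, hr⟩ := hM.cont_r n
  obtain ⟨Lε, hLε, hε⟩ := hM.cont_ε n
  obtain ⟨Ld, hLd, hd⟩ := hM.cont_dia
  obtain ⟨Lρ, hLρ, hρ⟩ := ρ.isAdicContinuous n
  haveI := hLr
  haveI := hLε
  haveI := hLd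
  haveI := hLρ
  haveI : FiniteDimensional ℚ ↥(Lr ⊔ Lε) := IntermediateField.finiteDimensional_sup _ _
  haveI : FiniteDimensional ℚ ↥(Lr ⊔ Lε ⊔ Ld) := IntermediateField.finiteDimensional_sup _ _
  obtain ⟨ℓ, hℓ, hℓS, A, τ, k, j, hA, hτ, h1, h2⟩ :=
    hdens (Lr ⊔ Lε ⊔ Ld ⊔ Lρ) (IntermediateField.finiteDimensional_sup _ _) g
  have hLr' : Lr ≤ Lr ⊔ Lε ⊔ Ld ⊔ Lρ := le_sup_of_le_left (le_sup_of_le_left le_sup_left)
  have hLε' : Lε ≤ Lr ⊔ Lε ⊔ Ld ⊔ Lρ := le_sup_of_le_left (le_sup_of_le_left le_sup_right)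
  have hLd' : Ld ≤ Lr ⊔ Lε ⊔ Ld ⊔ Lρ := le_sup_of_le_left le_sup_right
  have hLρ' : Lρ ≤ Lr ⊔ Lε ⊔ Ld ⊔ Lρ := le_sup_right
  set u₁ : GQ := (g ^ k)⁻¹ * τ with hu₁
  set u₂ : GQ := ((g ^ k) ^ j)⁻¹ * g with hu₂
  have hu₁L : ∀ x ∈ Lr ⊔ Lε ⊔ Ld ⊔ Lρ, u₁ x = x :=
    fun x hx => inv_mul_apply_eq _ _ x (h1 x hx)
  have hu₂L : ∀ x ∈ Lr ⊔ Lε ⊔ Ld ⊔ Lρ, u₂ x = x :=
    fun x hx => inv_mul_apply_eq _ _ x (h2 x hx).symm
  have hτeq : τ = g ^ k * u₁ := by rw [hu₁, mul_inv_cancel_left]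
  have hgeq : g = (g ^ k) ^ j * u₂ := by rw [hu₂, mul_inv_cancel_left]
  -- the congruences
  have hsm : ∀ u : GQ, (∀ x ∈ Lr ⊔ Lε ⊔ Ld ⊔ Lρ, u x = x) →
      r u - 1 ∈ (smallEnd (V := Λ) (I₀ ^ n)).toAddSubgroup := fun u hu v => by
    rw [LinearMap.sub_apply, Module.End.one_apply]
    exact hr u (fun x hx => hu x (hLr' hx)) v
  have hsmρ : ∀ u : GQ, (∀ x ∈ Lr ⊔ Lε ⊔ Ld ⊔ Lρ, u x = x) →
      ρ.ρ u - 1 ∈ (smallEnd (V := ρ.V) (maximalIdeal T ^ n)).toAddSubgroup := fun u hu v => by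
    rw [LinearMap.sub_apply, Module.End.one_apply]
    exact hρ u (fun x hx => hu x (hLρ' hx)) v
  have hsmε : ∀ u : GQ, (∀ x ∈ Lr ⊔ Lε ⊔ Ld ⊔ Lρ, u x = x) →
      ε u - 1 ∈ (I₀ ^ n).toAddSubgroup := fun u hu =>
    hε u (fun x hx => hu x (hLε' hx))
  have hd₁ : dia u₁ = 1 := hd u₁ fun x hx => hu₁L x (hLd' hx)
  have hd₂ : dia u₂ = 1 := hd u₂ fun x hx => hu₂L x (hLd' hx)
  have c1 : r g - r τ ^ j ∈ (smallEnd (V := Λ) (I₀ ^ n)).toAddSubgroup :=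
    (isTwoSided_smallEnd _).hom_sub_pow r g τ u₁ u₂ k j hτeq hgeq (hsm u₁ hu₁L) (hsm u₂ hu₂L)
  have c2 : ρ.ρ g - ρ.ρ τ ^ j ∈ (smallEnd (V := ρ.V) (maximalIdeal T ^ n)).toAddSubgroup :=
    (isTwoSided_smallEnd _).hom_sub_pow ρ.ρ g τ u₁ u₂ k j hτeq hgeq (hsmρ u₁ hu₁L)
      (hsmρ u₂ hu₂L)
  have c3 : ε g - ε τ ^ j ∈ (I₀ ^ n).toAddSubgroup :=
    (isTwoSided_ideal _).hom_sub_pow ε g τ u₁ u₂ k j hτeq hgeq (hsmε u₁ hu₁L) (hsmε u₂ hu₂L)
  rw [hM.frob_ε ℓ hℓ hℓS A hA τ hτ] at c3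
  have c4 : dia g = dia τ ^ j := by
    have e1 : dia τ = dia (g ^ k) := by rw [hτeq, map_mul, hd₁, mul_one]
    have e2 : dia g = dia ((g ^ k) ^ j) := by
      conv_lhs => rw [hgeq]
      rw [map_mul, hd₂, mul_one]
    rw [e2, map_pow, ← e1]
  -- the Hecke element
  refine ⟨lucas (Tl ℓ) ((ℓ : 𝕋) * dia τ) j, ?_, ?_⟩
  · have hex := lucas_rel_of_commute (r τ) (θ (Tl ℓ)) (θ ((ℓ : 𝕋) * dia τ)) (hM.comm _ τ)
      (hM.comm _ τ) ((Commute.all (Tl ℓ) ((ℓ : 𝕋) * dia τ)).map θ)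
      (hM.es ℓ hℓ hℓS A hA τ hτ) j
    have hθb : θ (lucas (Tl ℓ) ((ℓ : 𝕋) * dia τ) j) =
        lucas (θ (Tl ℓ)) (θ ((ℓ : 𝕋) * dia τ)) j := map_lucas θ _ _ j
    have hcast : θ ((ℓ : 𝕋) * dia τ) ^ j = ((ℓ : R₀) ^ j) • θ (dia g) := by
      rw [← map_pow, mul_pow, ← c4, map_mul, map_pow, map_natCast,
        ← Nat.cast_pow, ← Nat.cast_pow, Nat.cast_smul_eq_nsmul, nsmul_eq_mul]
    set x := r τ ^ j with hx
    set B := θ (lucas (Tl ℓ) ((ℓ : 𝕋) * dia τ) j) with hB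
    rw [← hθb, hcast] at hex
    have hS := isTwoSided_smallEnd (V := Λ) (I₀ ^ n)
    have t1 : r g * r g - x * x ∈ (smallEnd (V := Λ) (I₀ ^ n)).toAddSubgroup :=
      hS.mul_sub_mul c1 c1
    have t2 : B * (r g - x) ∈ (smallEnd (V := Λ) (I₀ ^ n)).toAddSubgroup := hS.mul_left B c1
    have t3 : (ε g - (ℓ : R₀) ^ j) • θ (dia g) ∈
        (smallEnd (V := Λ) (I₀ ^ n)).toAddSubgroup := by
      have : (ε g - (ℓ : R₀) ^ j) • θ (dia g) =
          ((ε g - (ℓ : R₀) ^ j) • (1 : Module.End R₀ Λ)) * θ (dia g) := by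
        rw [smul_mul_assoc, one_mul]
      rw [this]
      exact hS.mul_right _ (smul_one_mem_smallEnd c3)
    have : r g * r g - B * r g + ε g • θ (dia g) =
        (r g * r g - x * x) - B * (r g - x) + (ε g - (ℓ : R₀) ^ j) • θ (dia g)
          + (x * x - B * x + ((ℓ : R₀) ^ j) • θ (dia g)) := by
      rw [sub_smul, mul_sub]
      abel
    rw [this, hex, add_zero]
    exact AddSubgroup.add_mem _ (AddSubgroup.sub_mem _ t1 t2) t3
  · have htr := trace_pow_eq_lucas ρ.finrank_eq (ρ.ρ τ) (π (Tl ℓ)) ((ℓ : T) * π (dia τ))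
      (hcp ℓ hℓ hℓS A hA τ hτ) j
    have hπb : π (lucas (Tl ℓ) ((ℓ : 𝕋) * dia τ) j) =
        lucas (π (Tl ℓ)) ((ℓ : T) * π (dia τ)) j := by
      rw [map_lucas, map_mul, map_natCast]
    rw [hπb, ← htr, ← map_sub]
    exact trace_mem_of_mem_smallEnd c2

/-- **The trace from the gate.**  If `σ` satisfies the cubic `(σ - 1)² (σ - ⟨σ⟩) = 0` on the
Hecke-Galois module `Λ` and `ε σ = 1`, then `(tr ρ(σ) - 1 - π ⟨σ⟩)² = 0`. -/
theorem trace_sub_sq_eq_zero (hM : HeckeModuleD Sg I₀ Tl r ε dia θ) (ρ : GaloisRepAdic T)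
    (π : 𝕋 →+* T) (hcp : FrobCharpolyViaD ρ Sg Tl dia π) (hdens : Density Sg)
    (hsep : ∀ x : T, (∀ n, x ∈ maximalIdeal T ^ n) → x = 0)
    (hinj : ∀ n : ℕ, ∃ n' : ℕ, ∀ t : 𝕋,
      (∀ v : Λ, θ t v ∈ (I₀ ^ n') • (⊤ : Submodule R₀ Λ)) → π t ∈ maximalIdeal T ^ n)
    (σ : GQ) (hσ : (r σ - 1) * (r σ - 1) * (r σ - θ (dia σ)) = 0) (hσε : ε σ = 1) :
    (LinearMap.trace T ρ.V (ρ.ρ σ) - 1 - π (dia σ)) *
      (LinearMap.trace T ρ.V (ρ.ρ σ) - 1 - π (dia σ)) = 0 := by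
  refine hsep _ fun n => ?_
  obtain ⟨n', hn'⟩ := hinj n
  obtain ⟨b, hb1, hb2⟩ := exists_approxD hM ρ π hcp hdens σ (max n n')
  rw [hσε, one_smul] at hb1
  have hS := isTwoSided_smallEnd (V := Λ) (I₀ ^ max n n')
  have hinv : θ (dia σ⁻¹) * θ (dia σ) = 1 := by
    rw [← map_mul, ← map_mul, inv_mul_cancel, map_one, map_one]
  have h1 : (θ b - 1 - θ (dia σ)) * (θ b - 1 - θ (dia σ)) ∈
      (smallEnd (V := Λ) (I₀ ^ max n n')).toAddSubgroup :=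
    sq_mem_of_cubic hS (r σ) (θ b) (θ (dia σ)) (θ (dia σ⁻¹)) (hM.comm b σ) (hM.comm _ σ)
      ((Commute.all b (dia σ)).map θ) hinv hb1 hσ
  have h2 : θ ((b - 1 - dia σ) * (b - 1 - dia σ)) ∈ smallEnd (V := Λ) (I₀ ^ max n n') := by
    rw [map_mul, map_sub, map_sub, map_one]
    exact h1
  have h3 : π ((b - 1 - dia σ) * (b - 1 - dia σ)) ∈ maximalIdeal T ^ n :=
    hn' _ fun v => smallEnd_mono (Ideal.pow_le_pow_right (le_max_right n n')) h2 v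
  have hle : maximalIdeal T ^ max n n' ≤ maximalIdeal T ^ n :=
    Ideal.pow_le_pow_right (le_max_left n n')
  have h4 := hle hb2
  set t := LinearMap.trace T ρ.V (ρ.ρ σ) with ht
  have : (t - 1 - π (dia σ)) * (t - 1 - π (dia σ)) =
      (t - π b) * ((t - π b) + 2 * π (b - 1 - dia σ))
        + π ((b - 1 - dia σ) * (b - 1 - dia σ)) := by
    rw [map_mul, map_sub, map_sub, map_one]
    ring
  rw [this]
  exact Ideal.add_mem _ (Ideal.mul_mem_right _ _ h4) h3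

/-- **The trace from the gate on a part.**  As `trace_sub_sq_eq_zero`, when the cubic only holds
after multiplication by `θ m` (the gate on the `e_H`-part, `m = ∑_{h ∈ H} ⟨h⟩`):
`(tr ρ(σ) - 1 - π ⟨σ⟩)² π(m) = 0`. -/
theorem trace_sub_sq_mul_eq_zero (hM : HeckeModuleD Sg I₀ Tl r ε dia θ) (ρ : GaloisRepAdic T)
    (π : 𝕋 →+* T) (hcp : FrobCharpolyViaD ρ Sg Tl dia π) (hdens : Density Sg)
    (hsep : ∀ x : T, (∀ n, x ∈ maximalIdeal T ^ n) → x = 0)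
    (hinj : ∀ n : ℕ, ∃ n' : ℕ, ∀ t : 𝕋,
      (∀ v : Λ, θ t v ∈ (I₀ ^ n') • (⊤ : Submodule R₀ Λ)) → π t ∈ maximalIdeal T ^ n)
    (σ : GQ) (m : 𝕋)
    (hσ : (r σ - 1) * (r σ - 1) * (r σ - θ (dia σ)) * θ m = 0) (hσε : ε σ = 1) :
    (LinearMap.trace T ρ.V (ρ.ρ σ) - 1 - π (dia σ)) *
      (LinearMap.trace T ρ.V (ρ.ρ σ) - 1 - π (dia σ)) * π m = 0 := by
  refine hsep _ fun n => ?_
  obtain ⟨n', hn'⟩ := hinj n
  obtain ⟨b, hb1, hb2⟩ := exists_approxD hM ρ π hcp hdens σ (max n n')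
  rw [hσε, one_smul] at hb1
  have hS := isTwoSided_smallEnd (V := Λ) (I₀ ^ max n n')
  have hinv : θ (dia σ⁻¹) * θ (dia σ) = 1 := by
    rw [← map_mul, ← map_mul, inv_mul_cancel, map_one, map_one]
  have h1 : (θ b - 1 - θ (dia σ)) * (θ b - 1 - θ (dia σ)) * θ m ∈
      (smallEnd (V := Λ) (I₀ ^ max n n')).toAddSubgroup :=
    sq_mul_mem_of_cubic_mul hS (r σ) (θ b) (θ (dia σ)) (θ (dia σ⁻¹)) (θ m) (hM.comm b σ)
      (hM.comm _ σ) ((Commute.all b (dia σ)).map θ) (hM.comm m σ)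
      ((Commute.all m b).map θ) ((Commute.all m (dia σ)).map θ) hinv hb1 hσ
  have h2 : θ ((b - 1 - dia σ) * (b - 1 - dia σ) * m) ∈ smallEnd (V := Λ) (I₀ ^ max n n') := by
    rw [map_mul, map_mul, map_sub, map_sub, map_one]
    exact h1
  have h3 : π ((b - 1 - dia σ) * (b - 1 - dia σ) * m) ∈ maximalIdeal T ^ n :=
    hn' _ fun v => smallEnd_mono (Ideal.pow_le_pow_right (le_max_right n n')) h2 v
  have hle : maximalIdeal T ^ max n n' ≤ maximalIdeal T ^ n :=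
    Ideal.pow_le_pow_right (le_max_left n n')
  have h4 := hle hb2
  set t := LinearMap.trace T ρ.V (ρ.ρ σ) with ht
  have : (t - 1 - π (dia σ)) * (t - 1 - π (dia σ)) * π m =
      (t - π b) * (((t - π b) + 2 * π (b - 1 - dia σ)) * π m)
        + π ((b - 1 - dia σ) * (b - 1 - dia σ) * m) := by
    rw [map_mul, map_mul, map_sub, map_sub, map_one]
    ring
  rw [this]
  exact Ideal.add_mem _ (Ideal.mul_mem_right _ _ h4) h3

/-- **`det ρ` is the cyclotomic character times the nebentypus.** -/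
theorem det_eq (p : ℕ) [Fact p.Prime] (hp : (p : T) ∈ maximalIdeal T) (ι : ℤ_[p] →+* T)
    (hpS : p ∈ Sg)
    (hdia : ∃ L : IntermediateField ℚ Qbar, FiniteDimensional ℚ L ∧
      ∀ u : GQ, (∀ x ∈ L, u x = x) → dia u = 1)
    (ρ : GaloisRepAdic T) (habs : ρ.residual.IsAbsolutelyIrreducible) (π : 𝕋 →+* T)
    (hcp : FrobCharpolyViaD ρ Sg Tl dia π) (hdens : Density Sg)
    (hsep : ∀ x : T, (∀ n, x ∈ maximalIdeal T ^ n) → x = 0) (σ : GQ) :
    LinearMap.det (ρ.ρ σ) = Cyclotomic.cycChar p ι σ * π (dia σ) := by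
  classical
  let b := Module.finBasisOfFinrankEq T ρ.V ρ.finrank_eq
  have hεc := Cyclotomic.cycChar_continuous p ι (maximalIdeal T) hp
  choose Lε hLε hε using hεc
  choose Lρ hLρ hρ using ρ.isAdicContinuous
  obtain ⟨Ld, hLd, hd⟩ := hdia
  let χ : GQ →* T := Cyclotomic.cycChar p ι * (π : 𝕋 →* T).comp dia
  have hχ : ∀ g, χ g = Cyclotomic.cycChar p ι g * π (dia g) := fun g => rfl
  rw [← hχ]
  refine DetLemma.End.det_eq_of_density b (maximalIdeal T) hsep ρ.ρ χ (frobSet Sg) ?_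
    (fun n => {u : GQ | ∀ x ∈ Lρ n ⊔ Lε n ⊔ Ld, u x = x}) ?_ ?_ ?_
    (Fermat.Agent.S34.UnipCore.exists_not_isScalar ρ habs) σ
  · rintro τ ⟨ℓ, hℓ, hℓS, A, hA, hτ⟩ -
    have hℓp : ℓ ≠ p := fun h => hℓS (h ▸ hpS)
    rw [hχ, Cyclotomic.cycChar_isFrobeniusAt p ι hℓ hℓp A hA τ hτ]
    exact Fermat.Agent.S34.UnipCore.det_of_charpoly ρ.finrank_eq (ρ.ρ τ) (π (Tl ℓ))
      ((ℓ : T) * π (dia τ)) (hcp ℓ hℓ hℓS A hA τ hτ)
  · intro n u hu v
    exact hρ n u (fun x hx => hu x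
      ((le_sup_of_le_left le_sup_left : Lρ n ≤ Lρ n ⊔ Lε n ⊔ Ld) hx)) v
  · intro n u hu
    have h1 : dia u = 1 := hd u fun x hx => hu x ((le_sup_right : Ld ≤ Lρ n ⊔ Lε n ⊔ Ld) hx)
    rw [hχ, h1, map_one, mul_one]
    exact hε n u (fun x hx => hu x
      ((le_sup_of_le_left le_sup_right : Lε n ≤ Lρ n ⊔ Lε n ⊔ Ld) hx))
  · intro n g
    haveI := hLρ n
    haveI := hLε n
    haveI := hLd
    haveI : FiniteDimensional ℚ ↥(Lρ n ⊔ Lε n) := IntermediateField.finiteDimensional_sup _ _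
    obtain ⟨ℓ, hℓ, hℓS, A, τ, k, j, hA, hτ, h1, h2⟩ :=
      hdens (Lρ n ⊔ Lε n ⊔ Ld) (IntermediateField.finiteDimensional_sup _ _) g
    refine ⟨τ, ⟨ℓ, hℓ, hℓS, A, hA, hτ⟩, k, j, (g ^ k)⁻¹ * τ, ?_, ((g ^ k) ^ j)⁻¹ * g, ?_, ?_, ?_⟩
    · intro x hx
      exact inv_mul_apply_eq _ _ x (h1 x hx)
    · intro x hx
      exact inv_mul_apply_eq _ _ x (h2 x hx).symm
    · rw [mul_inv_cancel_left]
    · rw [mul_inv_cancel_left]

/-- In rank two, the characteristic polynomial from the trace and the determinant. -/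
theorem charpoly_eq_of_trace_det' {V : Type*} [AddCommGroup V] [Module T V] [Module.Free T V]
    [Module.Finite T V] (h2 : Module.finrank T V = 2) (f : Module.End T V) (δ : T)
    (htr : LinearMap.trace T V f = 1 + δ) (hdet : LinearMap.det f = δ) :
    LinearMap.charpoly f = (X - 1) * (X - C δ) := by
  classical
  let b := Module.finBasisOfFinrankEq T V h2
  rw [← LinearMap.charpoly_toMatrix f b, Matrix.charpoly_fin_two,
    ← LinearMap.trace_eq_matrix_trace T b f, LinearMap.det_toMatrix, htr, hdet]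
  rw [map_add, map_one]
  ring

end Main

/-! ### The `p`-adic specialisation -/

section Padic

variable (p : ℕ) [Fact p.Prime]
variable {T : Type} [CommRing T] [IsLocalRing T]
variable {𝕋 : Type*} [CommRing 𝕋]
variable {Λ : Type*} [AddCommGroup Λ] [Module ℤ_[p] Λ]

/-- A `ℤ_p`-module with continuous Galois action, Hecke action commuting with Galois, a diamond
character of finite level and the Eichler-Shimura relation is a Hecke-Galois module with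
nebentypus for the cyclotomic character. -/
theorem heckeModuleD_padic {Sg : Finset ℕ} (hpS : p ∈ Sg) (Tl : ℕ → 𝕋) (dia : GQ →* 𝕋)
    (r : GQ →* Module.End ℤ_[p] Λ) (θ : 𝕋 →+* Module.End ℤ_[p] Λ)
    (hcont : ∀ n : ℕ, ∃ L : IntermediateField ℚ Qbar, FiniteDimensional ℚ L ∧
      ∀ u : GQ, (∀ x ∈ L, u x = x) → ∀ v : Λ,
        r u v - v ∈ (Ideal.span {(p : ℤ_[p])} ^ n) • (⊤ : Submodule ℤ_[p] Λ))
    (hdia : ∃ L : IntermediateField ℚ Qbar, FiniteDimensional ℚ L ∧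
      ∀ u : GQ, (∀ x ∈ L, u x = x) → dia u = 1)
    (hcomm : ∀ (t : 𝕋) (g : GQ), Commute (θ t) (r g))
    (hes : ∀ ℓ : ℕ, ℓ.Prime → ℓ ∉ Sg → ∀ A : ValuationSubring Qbar, A.LiesOverPrime ℓ →
      ∀ τ : GQ, A.IsFrobeniusAt τ ℓ →
        r τ * r τ - θ (Tl ℓ) * r τ + θ ((ℓ : 𝕋) * dia τ) = 0) :
    HeckeModuleD Sg (Ideal.span {(p : ℤ_[p])}) Tl r (eps p) dia θ where
  cont_r := hcont
  cont_ε := fun n => Cyclotomic.cycChar_continuous p (RingHom.id ℤ_[p])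
    (Ideal.span {(p : ℤ_[p])}) (Ideal.subset_span (Set.mem_singleton _)) n
  cont_dia := hdia
  frob_ε := fun _ hℓ hℓS A hA τ hτ =>
    Cyclotomic.cycChar_isFrobeniusAt p (RingHom.id ℤ_[p]) hℓ (fun h => hℓS (h ▸ hpS)) A hA τ hτ
  comm := hcomm
  es := hes

/-- **L2, abstract form: the inertial type `{1, ⟨d_σ⟩}` at `q ≠ p`.**  Over a reduced `T`,
`charpoly ρ(σ) = (X - 1)(X - π(dia σ))` for every `σ` in an inertia group at `q ≠ p` which satisfies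
the gate `(σ - 1)² (σ - ⟨σ⟩) = 0` on the Hecke-Galois module `Λ`. -/
theorem charpoly_eq_of_heckeModuleD [IsReduced T] {Sg : Finset ℕ} (hpS : p ∈ Sg) (Tl : ℕ → 𝕋)
    (dia : GQ →* 𝕋) (r : GQ →* Module.End ℤ_[p] Λ) (θ : 𝕋 →+* Module.End ℤ_[p] Λ)
    (hcont : ∀ n : ℕ, ∃ L : IntermediateField ℚ Qbar, FiniteDimensional ℚ L ∧
      ∀ u : GQ, (∀ x ∈ L, u x = x) → ∀ v : Λ,
        r u v - v ∈ (Ideal.span {(p : ℤ_[p])} ^ n) • (⊤ : Submodule ℤ_[p] Λ))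
    (hdia : ∃ L : IntermediateField ℚ Qbar, FiniteDimensional ℚ L ∧
      ∀ u : GQ, (∀ x ∈ L, u x = x) → dia u = 1)
    (hcomm : ∀ (t : 𝕋) (g : GQ), Commute (θ t) (r g))
    (hes : ∀ ℓ : ℕ, ℓ.Prime → ℓ ∉ Sg → ∀ A : ValuationSubring Qbar, A.LiesOverPrime ℓ →
      ∀ τ : GQ, A.IsFrobeniusAt τ ℓ →
        r τ * r τ - θ (Tl ℓ) * r τ + θ ((ℓ : 𝕋) * dia τ) = 0)
    (ρ : GaloisRepAdic T) (habs : ρ.residual.IsAbsolutelyIrreducible) (π : 𝕋 →+* T)
    (hcp : FrobCharpolyViaD ρ Sg Tl dia π) (hdens : Density Sg)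
    (hsep : ∀ x : T, (∀ n, x ∈ maximalIdeal T ^ n) → x = 0)
    (hpT : (p : T) ∈ maximalIdeal T) (ι : ℤ_[p] →+* T)
    (hinj : ∀ n : ℕ, ∃ n' : ℕ, ∀ t : 𝕋,
      (∀ v : Λ, θ t v ∈ (Ideal.span {(p : ℤ_[p])} ^ n') • (⊤ : Submodule ℤ_[p] Λ)) →
        t ∈ Ideal.span {(p : 𝕋) ^ n})
    (q : ℕ) (hq : q.Prime) (hqp : q ≠ p)
    (P : ValuationSubring Qbar) (hP : P.LiesOverPrime q) (σ : GQ)
    (hσ : σ ∈ P.inertiaSubgroupIn ℚ)
    (hgate : (r σ - 1) * (r σ - 1) * (r σ - θ (dia σ)) = 0) :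
    LinearMap.charpoly (ρ.ρ σ) = (X - 1) * (X - C (π (dia σ))) := by
  refine charpoly_eq_of_trace_det' ρ.finrank_eq (ρ.ρ σ) (π (dia σ)) ?_ ?_
  · have h := trace_sub_sq_eq_zero (heckeModuleD_padic p hpS Tl dia r θ hcont hdia hcomm hes) ρ π
      hcp hdens hsep (hinj_of_span p π hpT hinj) σ hgate
      (Cyclotomic.cycChar_inertia p (RingHom.id ℤ_[p]) hq hqp P hP σ hσ)
    have h0 := IsReduced.eq_zero (LinearMap.trace T ρ.V (ρ.ρ σ) - 1 - π (dia σ))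
      ⟨2, by rw [sq]; exact h⟩
    linear_combination h0
  · rw [det_eq p hpT ι hpS hdia ρ habs π hcp hdens hsep σ,
      Cyclotomic.cycChar_inertia p ι hq hqp P hP σ hσ, one_mul]

/-- **L2, abstract form, on a part.**  As `charpoly_eq_of_heckeModuleD`, when the gate only holds on
the image of `θ m` and `π m` is a unit of `T` (the `e_H`-part: `m = ∑_{h ∈ H} ⟨h⟩`, `π m = |H|`). -/
theorem charpoly_eq_of_heckeModuleD_mul [IsReduced T] {Sg : Finset ℕ} (hpS : p ∈ Sg)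
    (Tl : ℕ → 𝕋) (dia : GQ →* 𝕋) (r : GQ →* Module.End ℤ_[p] Λ)
    (θ : 𝕋 →+* Module.End ℤ_[p] Λ)
    (hcont : ∀ n : ℕ, ∃ L : IntermediateField ℚ Qbar, FiniteDimensional ℚ L ∧
      ∀ u : GQ, (∀ x ∈ L, u x = x) → ∀ v : Λ,
        r u v - v ∈ (Ideal.span {(p : ℤ_[p])} ^ n) • (⊤ : Submodule ℤ_[p] Λ))
    (hdia : ∃ L : IntermediateField ℚ Qbar, FiniteDimensional ℚ L ∧
      ∀ u : GQ, (∀ x ∈ L, u x = x) → dia u = 1)
    (hcomm : ∀ (t : 𝕋) (g : GQ), Commute (θ t) (r g))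
    (hes : ∀ ℓ : ℕ, ℓ.Prime → ℓ ∉ Sg → ∀ A : ValuationSubring Qbar, A.LiesOverPrime ℓ →
      ∀ τ : GQ, A.IsFrobeniusAt τ ℓ →
        r τ * r τ - θ (Tl ℓ) * r τ + θ ((ℓ : 𝕋) * dia τ) = 0)
    (ρ : GaloisRepAdic T) (habs : ρ.residual.IsAbsolutelyIrreducible) (π : 𝕋 →+* T)
    (hcp : FrobCharpolyViaD ρ Sg Tl dia π) (hdens : Density Sg)
    (hsep : ∀ x : T, (∀ n, x ∈ maximalIdeal T ^ n) → x = 0)
    (hpT : (p : T) ∈ maximalIdeal T) (ι : ℤ_[p] →+* T)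
    (hinj : ∀ n : ℕ, ∃ n' : ℕ, ∀ t : 𝕋,
      (∀ v : Λ, θ t v ∈ (Ideal.span {(p : ℤ_[p])} ^ n') • (⊤ : Submodule ℤ_[p] Λ)) →
        t ∈ Ideal.span {(p : 𝕋) ^ n})
    (q : ℕ) (hq : q.Prime) (hqp : q ≠ p)
    (P : ValuationSubring Qbar) (hP : P.LiesOverPrime q) (σ : GQ)
    (hσ : σ ∈ P.inertiaSubgroupIn ℚ) (m : 𝕋) (hm : IsUnit (π m))
    (hgate : (r σ - 1) * (r σ - 1) * (r σ - θ (dia σ)) * θ m = 0) :
    LinearMap.charpoly (ρ.ρ σ) = (X - 1) * (X - C (π (dia σ))) := by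
  refine charpoly_eq_of_trace_det' ρ.finrank_eq (ρ.ρ σ) (π (dia σ)) ?_ ?_
  · have h := trace_sub_sq_mul_eq_zero (heckeModuleD_padic p hpS Tl dia r θ hcont hdia hcomm hes)
      ρ π hcp hdens hsep (hinj_of_span p π hpT hinj) σ m hgate
      (Cyclotomic.cycChar_inertia p (RingHom.id ℤ_[p]) hq hqp P hP σ hσ)
    have h' := (hm.mul_left_eq_zero).mp h
    have h0 := IsReduced.eq_zero (LinearMap.trace T ρ.V (ρ.ρ σ) - 1 - π (dia σ))
      ⟨2, by rw [sq]; exact h'⟩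
    linear_combination h0
  · rw [det_eq p hpT ι hpS hdia ρ habs π hcp hdens hsep σ,
      Cyclotomic.cycChar_inertia p ι hq hqp P hP σ hσ, one_mul]

end Padic

end Fermat.Agent.S43.Loc2.Core
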