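/-
PROJECT R (row 37 by S43), block L2 (helper4): THE GATE ON THE TATE MODULE OF `J₁(N q)`.

Twin of main's `S34/Top.galoisHom_sub_one_sq`.  From the gate in the chief's literal
`S43/Seam.LG1HypAt N q p false` :

  `(r s - 1) (r s - 1) (r s - ⟨d_s⟩_*) = 0`  on  `T_p J₁(N q)`,

`r = Tp.galoisHom G_ℚ`, `⟨d⟩_* = Tp.mapEnd (diamond1Bar (N q) d)`, for every `s` in an inertia group
at `q` and its diamond `d_s` (`d_s ≡ 1 mod N`, `s ζ = ζ ^ d_s` on `μ_q`).  This is the hypothesis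
`hgate` of `S43/Loc2/Core.charpoly_eq_of_heckeModuleD` for `Λ = T_p J₁(N q)`.
-/
import Fermat.Agent.S43.Seam
import Fermat.Agent.S30.Padic.TateModule

set_option autoImplicit false
set_option linter.unusedSectionVars false

noncomputable section

namespace Fermat.Agent.S43.Loc2.TateGate

open Fermat.Agent.S48.B.Defs.Model
open Fermat.Agent.S30.Padic.TateModule
open Fermat.Agent.S43.Seam

local notation "Kb" => AlgebraicClosure ℚ

/-- `⟨d⟩_*` on the Tate module of `J₁(M)` -/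
def diamondTp (p : ℕ) [Fact p.Prime] (M : ℕ) [NeZero M] (d : (ZMod M)ˣ) :
    Module.End ℤ_[p] (Tp p (J1 M)) :=
  Tp.mapEnd (p := p) (J := J1 M) (diamond1Bar M d).toAddMonoidHom

/-- **The gate on the Tate module.** -/
theorem galoisHom_cubic {N q p : ℕ} [Fact p.Prime] [NeZero (N * q)]
    (hG : LG1HypAt N q p false) (A : ValuationSubring Kb) (hA : A.LiesOverPrime q)
    (s : Kb ≃ₐ[ℚ] Kb) (hs : s ∈ A.inertiaSubgroupIn ℚ) (d : (ZMod (N * q))ˣ)
    (hd1 : IsOneModLeft N q d) (hμ : ActsOnMuAs N q s d) :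
    (Tp.galoisHom (p := p) (J := J1 (N * q)) (Kb ≃ₐ[ℚ] Kb) s - 1) *
        (Tp.galoisHom (p := p) (J := J1 (N * q)) (Kb ≃ₐ[ℚ] Kb) s - 1) *
      (Tp.galoisHom (p := p) (J := J1 (N * q)) (Kb ≃ₐ[ℚ] Kb) s - diamondTp p (N * q) d) = 0 := by
  apply LinearMap.ext
  intro x
  apply Tp.ext
  intro k
  have h := hG A hA s hs d hd1 hμ (x.1 k) (Tp.isTorsion_apply x k)
  unfold CubicAt at h
  simp only [Bool.false_eq_true, if_false] at h
  simp only [Module.End.mul_apply, LinearMap.sub_apply, Module.End.one_apply,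
    LinearMap.zero_apply, map_sub, diamondTp]
  simp only [Tp.coe_sub_apply, Tp.coe_galoisHom_apply, Tp.coe_mapEnd_apply, Tp.coe_zero_apply]
  rw [← h]
  simp only [smul_sub]
  abel

end Fermat.Agent.S43.Loc2.TateGate
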