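/-
PROJECT R (row 37 by S43), block L2 (helper4): THE TATE MODULE OF `J₁(M)` IS A HECKE-GALOIS MODULE
WITH NEBENTYPUS (hypothesis-free, `M ≥ 5`).

Twin of main's `S31/TateArith` for `Λ := Tp p (J1 M)`, `r := Tp.galoisHom G_ℚ`, on S48's stock:

* `finite_torsion1` : the `n`-torsion of `J₁(M)(ℚ̄)` is finite (`Inst/Dict.finite_torsion` on the
  dictionary of `Dict/Places/Final`, `Dict/Descent/RootTwist`);
* `cont1` : adic continuity of `r` (`Arith/Smooth1`);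
* `commute_hecke`, `commute_diamond` : `Tp.mapEnd (T_r)`, `diamondTp d` commute with `r σ`;
* `eichlerShimura1` : `r τ * r τ - Tp.mapEnd (T_ℓ) * r τ + ℓ ⟨ℓ⟩_* = 0` at Frobenius lifts `τ` at
  `ℓ ∤ M`, `ℓ ≠ p` (`Inst/Torsion.frobenius_quadratic` on `S48/Reduction.hasReduction1All`);
* `chi_frob_eq` : `χ_M (Frob_ℓ) = ℓ` as a unit;
* **`heckeModuleD_J1`** : for ANY commutative ring `𝕋` with `Tl : ℕ → 𝕋`, `dmd : (ZMod M)ˣ →* 𝕋` and an
  action `θ` on `Tp p (J1 M)` commuting with Galois, with `θ (Tl ℓ) = Tp.mapEnd (T_ℓ)` outside `Sg`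
  and `θ (dmd d) = ⟨d⟩_*`: `Loc2/Core.HeckeModuleD Sg (p) Tl r (eps p) (dmd ∘ χ_M) θ`.
-/
import Fermat.Agent.S43.Loc2.Core
import Fermat.Agent.S43.Loc2.TateGate
import Fermat.Agent.S48.Reduction
import Fermat.Agent.S48.B.Inst.Top
import Fermat.Agent.S48.B.Chain.GalChar

set_option autoImplicit false
set_option linter.unusedSectionVars false

noncomputable section

namespace Fermat.Agent.S43.Loc2.TateJ1

open Fermat.Agent.S48.B.Defs.Model Fermat.Agent.S48.B.Defs.Reduction Fermat.Agent.S48.B.Defs.Spec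
open Fermat.Agent.S30.Padic.TateModule
open Fermat.Agent.S31.Core (eps)
open Fermat.Agent.S43.Loc2.Core Fermat.Agent.S43.Loc2.TateGate
open Fermat.Agent.S56.Cheb.Galois.CycChar (chi)

local notation "Kb" => AlgebraicClosure ℚ
local notation "GQ" => (AlgebraicClosure ℚ ≃ₐ[ℚ] AlgebraicClosure ℚ)

variable (M : ℕ) [NeZero M] (p : ℕ) [Fact p.Prime]

/-- the dictionary of `X₁(M)`, `M ≥ 5` (hypothesis-free) -/
theorem phiDict1 (hM : 5 ≤ M) : PhiDict1 M Fermat.Agent.S48.B.Inst.Top.iotaC :=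
  Fermat.Agent.S48.B.Dict.Descent.RootTwist.phiDict1_of_deg_repLe M _
    (Fermat.Agent.S48.B.B1.Main.deg1 M) (Fermat.Agent.S48.B.B1.Main.repLe M)
    (Fermat.Agent.S48.B.Dict.PsiDictOf.psiDict1_of_localGlobal M hM
      (Fermat.Agent.S48.B.B1.Main.deg1 M) (Fermat.Agent.S48.B.B1.Main.repLe M)
      (Fermat.Agent.S48.B.Dict.Places.Final.localGlobal1 M (Fermat.Agent.S48.B.B1.Main.deg1 M) _))

/-- **the `n`-torsion of `J₁(M)(ℚ̄)` is finite** -/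
theorem finite_torsion1 (hM : 5 ≤ M) {n : ℕ} (hn : n ≠ 0) : {v : J1 M | n • v = 0}.Finite :=
  Fermat.Agent.S48.B.Inst.Dict.finite_torsion (phiDict1 M hM) hn

/-- **(C)** adic continuity of the Galois action on `Tp p (J1 M)`. -/
theorem cont1 (hM : 5 ≤ M) (n : ℕ) :
    ∃ L : IntermediateField ℚ Kb, FiniteDimensional ℚ L ∧
      ∀ u : GQ, (∀ x ∈ L, u x = x) → ∀ v : Tp p (J1 M),
        Tp.galoisHom (p := p) (J := J1 M) GQ u v - v ∈
          (Ideal.span {(p : ℤ_[p])} ^ n) • (⊤ : Submodule ℤ_[p] (Tp p (J1 M))) := by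
  have hp : p ≠ 0 := (Fact.out : p.Prime).ne_zero
  obtain ⟨L, hL, h⟩ := Fermat.Agent.S48.B.Arith.Smooth1.exists_finite_fixing_torsion M
    (Fermat.Agent.S48.B.Arith.Smooth1.smoothSeam1_of_deg1 M (Fermat.Agent.S48.B.B1.Main.deg1 M))
    (p ^ n) (finite_torsion1 M hM (pow_ne_zero n hp))
  refine ⟨L, hL, fun u hu v => ?_⟩
  obtain ⟨y, hy⟩ := Tp.exists_galoisHom_sub_eq_pow_smul (p := p) u n (h u hu) v
  rw [hy, Ideal.span_singleton_pow, Submodule.ideal_span_singleton_smul]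
  exact Submodule.smul_mem_pointwise_smul y _ ⊤ Submodule.mem_top

/-- `Tp.mapEnd (T_r)` commutes with the Galois action -/
theorem commute_hecke (r : Nat.Primes) (σ : GQ) :
    Commute (Tp.mapEnd (p := p) (J := J1 M) (hecke1Bar M r).toAddMonoidHom)
      (Tp.galoisHom (p := p) (J := J1 M) GQ σ) :=
  (Tp.commute_galoisHom_mapEnd (p := p) σ (hecke1Bar M r).toAddMonoidHom
    (fun y => Fermat.Agent.S48.B.Arith.HeckeGalois1.hecke1Bar_smul M r σ y)).symm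

/-- `⟨d⟩_*` commutes with the Galois action -/
theorem commute_diamond (d : (ZMod M)ˣ) (σ : GQ) :
    Commute (diamondTp p M d) (Tp.galoisHom (p := p) (J := J1 M) GQ σ) :=
  (Tp.commute_galoisHom_mapEnd (p := p) σ (diamond1Bar M d).toAddMonoidHom
    (fun y => Fermat.Agent.S48.B.Arith.HeckeGalois1.diamond1Bar_smul M d σ y)).symm

/-- **(ES)** the Eichler-Shimura relation on `Tp p (J1 M)`: every Frobenius lift `τ` at a prime
`ℓ ∤ M`, `ℓ ≠ p` satisfies `τ² - T_ℓ τ + ℓ ⟨ℓ⟩_* = 0`. -/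
theorem eichlerShimura1 (ℓ : ℕ) (hℓ : ℓ.Prime) (hℓM : ℓ.Coprime M) (hℓp : ℓ ≠ p)
    (A : ValuationSubring Kb) (hA : A.LiesOverPrime ℓ) (τ : GQ) (hτ : A.IsFrobeniusAt τ ℓ) :
    Tp.galoisHom (p := p) (J := J1 M) GQ τ * Tp.galoisHom (p := p) (J := J1 M) GQ τ
      - Tp.mapEnd (p := p) (J := J1 M) (hecke1Bar M ⟨ℓ, hℓ⟩).toAddMonoidHom *
          Tp.galoisHom (p := p) (J := J1 M) GQ τ
      + ((ℓ : ℕ) : Module.End ℤ_[p] (Tp p (J1 M))) *
          diamondTp p M (ZMod.unitOfCoprime ℓ hℓM) = 0 := by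
  ext x k
  have e := Fermat.Agent.S48.B.Inst.Torsion.frobenius_quadratic
    (Fermat.Agent.S48.Reduction.hasReduction1All M (Fact.out : p.Prime)) ⟨ℓ, hℓ⟩ hℓM hℓp A hA hτ
    (Tp.isTorsion_apply x k)
  rw [LinearMap.add_apply, LinearMap.sub_apply, Module.End.mul_apply, Module.End.mul_apply,
    Module.End.mul_apply, LinearMap.zero_apply, Tp.coe_add_apply, Tp.coe_sub_apply,
    Tp.coe_galoisHom_apply, Tp.coe_galoisHom_apply, Tp.coe_mapEnd_apply, Tp.coe_galoisHom_apply,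
    Tp.coe_zero_apply]
  have h3 : (((ℓ : ℕ) : Module.End ℤ_[p] (Tp p (J1 M))) (diamondTp p M
      (ZMod.unitOfCoprime ℓ hℓM) x)).1 k = ℓ • diamond1Bar M (ZMod.unitOfCoprime ℓ hℓM) (x.1 k) := by
    rw [Module.End.natCast_apply]
    rfl
  rw [h3]
  exact e

/-- `χ_M (Frob_ℓ) = ℓ`, as a unit -/
theorem chi_frob_eq {ℓ : ℕ} (hℓ : ℓ.Prime) (hℓM : ℓ.Coprime M) (A : ValuationSubring Kb)
    (hA : A.LiesOverPrime ℓ) (τ : GQ) (hτ : A.IsFrobeniusAt τ ℓ) :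
    chi M τ = ZMod.unitOfCoprime ℓ hℓM := by
  apply Units.ext
  rw [Fermat.Agent.S48.B.Chain.GalChar.chi_frob M hℓ
    (fun h => (Nat.Prime.coprime_iff_not_dvd hℓ).mp hℓM h) A hA τ hτ, ZMod.coe_unitOfCoprime]

variable {M p}

/-- **The Tate module of `J₁(M)` is a Hecke-Galois module with nebentypus**, for every commutative
ring `𝕋` acting through the Hecke operators and the diamonds. -/
theorem heckeModuleD_J1 (hM : 5 ≤ M) {𝕋 : Type*} [CommRing 𝕋] {Sg : Finset ℕ} (hpS : p ∈ Sg)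
    (hMS : ∀ q : ℕ, q.Prime → q ∣ M → q ∈ Sg) (Tl : ℕ → 𝕋) (dmd : (ZMod M)ˣ →* 𝕋)
    (θ : 𝕋 →+* Module.End ℤ_[p] (Tp p (J1 M)))
    (hθT : ∀ (ℓ : ℕ) (hℓ : ℓ.Prime), ℓ ∉ Sg →
      θ (Tl ℓ) = Tp.mapEnd (p := p) (J := J1 M) (hecke1Bar M ⟨ℓ, hℓ⟩).toAddMonoidHom)
    (hθd : ∀ d : (ZMod M)ˣ, θ (dmd d) = diamondTp p M d)
    (hcomm : ∀ (t : 𝕋) (g : GQ), Commute (θ t) (Tp.galoisHom (p := p) (J := J1 M) GQ g)) :
    HeckeModuleD Sg (Ideal.span {(p : ℤ_[p])}) Tl (Tp.galoisHom (p := p) (J := J1 M) GQ) (eps p)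
      (dmd.comp (chi M)) θ := by
  refine heckeModuleD_padic p hpS Tl (dmd.comp (chi M)) _ θ (cont1 M p hM) ?_ hcomm ?_
  · obtain ⟨L, hL, h⟩ := Fermat.Agent.S48.B.Chain.GalChar.chi_finiteLevel M
    exact ⟨L, hL, fun u hu => by rw [MonoidHom.comp_apply, h u hu, map_one]⟩
  · intro ℓ hℓ hℓS A hA τ hτ
    have hℓM : ℓ.Coprime M :=
      (Nat.Prime.coprime_iff_not_dvd hℓ).mpr fun h => hℓS (hMS ℓ hℓ h)
    have hℓp : ℓ ≠ p := fun h => hℓS (h ▸ hpS)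
    rw [hθT ℓ hℓ hℓS, map_mul, map_natCast, MonoidHom.comp_apply, hθd,
      chi_frob_eq M hℓ hℓM A hA τ hτ]
    exact eichlerShimura1 M p ℓ hℓ hℓM hℓp A hA τ hτ

end Fermat.Agent.S43.Loc2.TateJ1
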