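/-
PROJECT R (row 37 by S43), block L2 (helper4): **THE INERTIAL TYPE AT `q ∥ M`, `q ≠ p`, FROM THE
GATE** : for `ρ : GaloisRepAdic T` (`T` reduced) with the Frobenius characteristic polynomials
`X² - π(T_ℓ) X + ℓ π⟨ℓ⟩` of level `M = N q` (`q ∤ N` prime), every `σ` in an inertia group at `q` has

    `charpoly ρ(σ) = (X - 1) (X - π ⟨χ_M σ⟩)`.

`ρ` is ABSTRACT (no realisation inside the Tate module is needed): the Tate module `Tp p (J1 M)` only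
enters through the Hecke action `θ` and the faithfulness `hinj` (the S31/S34 pattern of main).

* `isOneModLeft_chi`, `actsOnMuAs_chi` : `d_σ := χ_{N q} σ` is the diamond of `σ` in the sense of the
  gate (`≡ 1 mod N`, cyclotomic character on `μ_q`);
* `charpoly_inertia_of_gate` : from `S43/Seam.LG1HypAt N q p false`;
* `charpoly_inertia_of_gateEven` : from the EVEN gate `LG1/Even.LG1HypAtEven N q p false` and a
  multiplier `m : 𝕋` with even image and `π m` a unit (`m = 1 + ⟨d'⟩`, or `m = ∑_{h ∈ H} ⟨h⟩`);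
* `isUnipotentOnInertiaAt_of_gate` : if `π ⟨χ_M σ⟩ = 1` on the inertia groups at `q` (trivial
  nebentypus at `q`, e.g. `q = 2`): the Prelude's `ρ.IsUnipotentOnInertiaAt q`.
-/
import Fermat.Agent.S43.Loc2.TateJ1
import Fermat.Agent.S43.LG1.Even

set_option autoImplicit false
set_option linter.unusedSectionVars false

noncomputable section

namespace Fermat.Agent.S43.Loc2.Type

open Polynomial IsLocalRing
open Fermat.Agent.S48.B.Defs.Model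
open Fermat.Agent.S30.Padic.TateModule
open Fermat.Agent.S31.Core (eps Qbar)
open Fermat.Agent.S30.Algebra.DetGalois (Density)
open Fermat.Agent.S43.Loc2.Core Fermat.Agent.S43.Loc2.TateGate Fermat.Agent.S43.Loc2.TateJ1
open Fermat.Agent.S43.Seam
open Fermat.Agent.S56.Cheb.Galois.CycChar (chi chi_spec chi_eq_one_iff exists_primitiveRoot
  pow_eq_pow_modEq)

local notation "Kb" => AlgebraicClosure ℚ
local notation "GQ" => (AlgebraicClosure ℚ ≃ₐ[ℚ] AlgebraicClosure ℚ)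

section Diamond

variable {N q : ℕ} [NeZero (N * q)]

/-- `σ` acts on `μ_q` through `χ_{N q} σ` -/
theorem actsOnMuAs_chi (σ : GQ) : ActsOnMuAs N q σ (chi (N * q) σ) := by
  intro ζ hζ
  exact chi_spec (N * q) σ ζ (by rw [mul_comm, pow_mul, hζ, one_pow])

/-- for `σ` in an inertia group at `q ∤ N`: `χ_{N q} σ ≡ 1 mod N` -/
theorem isOneModLeft_chi (hq : q.Prime) (hqN : ¬ q ∣ N) (A : ValuationSubring Kb)
    (hA : A.LiesOverPrime q) (σ : GQ) (hσ : σ ∈ A.inertiaSubgroupIn ℚ) :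
    IsOneModLeft N q (chi (N * q) σ) := by
  have : NeZero N := ⟨fun h => NeZero.ne (N * q) (by rw [h, zero_mul])⟩
  rw [Fermat.Agent.S43.LG1.ToSeam.isOneModLeft_iff]
  obtain ⟨ζ, hζ⟩ := exists_primitiveRoot N
  have h1 : σ ζ = ζ :=
    (chi_eq_one_iff N σ).mp
      (Fermat.Agent.S48.B.Chain.GalChar.chi_inertia N hq hqN A hA σ hσ) ζ hζ.pow_eq_one
  have h2 := chi_spec (N * q) σ ζ (by rw [pow_mul, hζ.pow_eq_one, one_pow])
  rw [h1] at h2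
  have h3 : ζ ^ 1 = ζ ^ ((chi (N * q) σ : (ZMod (N * q))ˣ) : ZMod (N * q)).val := by
    rw [pow_one]
    exact h2
  have h4 := pow_eq_pow_modEq N hζ h3
  have h5 := (ZMod.natCast_eq_natCast_iff _ _ _).mpr h4
  rw [← h5, Nat.cast_one]

end Diamond

section Main

variable {N q p : ℕ} [Fact p.Prime] [NeZero (N * q)]
variable {T : Type} [CommRing T] [IsLocalRing T] [IsReduced T]
variable {𝕋 : Type*} [CommRing 𝕋]

/-- **L2: the inertial type at `q` from the gate.** -/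
theorem charpoly_inertia_of_gate (hM : 5 ≤ N * q) (hq : q.Prime) (hqN : ¬ q ∣ N) (hqp : q ≠ p)
    (hG : LG1HypAt N q p false)
    {Sg : Finset ℕ} (hpS : p ∈ Sg) (hMS : ∀ l : ℕ, l.Prime → l ∣ N * q → l ∈ Sg)
    (Tl : ℕ → 𝕋) (dmd : (ZMod (N * q))ˣ →* 𝕋)
    (θ : 𝕋 →+* Module.End ℤ_[p] (Tp p (J1 (N * q))))
    (hθT : ∀ (ℓ : ℕ) (hℓ : ℓ.Prime), ℓ ∉ Sg →
      θ (Tl ℓ) = Tp.mapEnd (p := p) (J := J1 (N * q)) (hecke1Bar (N * q) ⟨ℓ, hℓ⟩).toAddMonoidHom)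
    (hθd : ∀ d : (ZMod (N * q))ˣ, θ (dmd d) = diamondTp p (N * q) d)
    (hcomm : ∀ (t : 𝕋) (g : GQ),
      Commute (θ t) (Tp.galoisHom (p := p) (J := J1 (N * q)) GQ g))
    (ρ : GaloisRepAdic T) (habs : ρ.residual.IsAbsolutelyIrreducible) (π : 𝕋 →+* T)
    (hcp : FrobCharpolyViaD ρ Sg Tl (dmd.comp (chi (N * q))) π) (hdens : Density Sg)
    (hsep : ∀ x : T, (∀ n, x ∈ maximalIdeal T ^ n) → x = 0)
    (hpT : (p : T) ∈ maximalIdeal T) (ι : ℤ_[p] →+* T)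
    (hinj : ∀ n : ℕ, ∃ n' : ℕ, ∀ t : 𝕋,
      (∀ v : Tp p (J1 (N * q)), θ t v ∈
        (Ideal.span {(p : ℤ_[p])} ^ n') • (⊤ : Submodule ℤ_[p] (Tp p (J1 (N * q))))) →
        t ∈ Ideal.span {(p : 𝕋) ^ n})
    (P : ValuationSubring Kb) (hP : P.LiesOverPrime q) (σ : GQ)
    (hσ : σ ∈ P.inertiaSubgroupIn ℚ) :
    LinearMap.charpoly (ρ.ρ σ) = (X - 1) * (X - C (π (dmd (chi (N * q) σ)))) := by
  have hH := heckeModuleD_J1 hM hpS hMS Tl dmd θ hθT hθd hcomm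
  refine charpoly_eq_of_heckeModuleD p hpS Tl (dmd.comp (chi (N * q))) _ θ hH.cont_r hH.cont_dia
    hcomm hH.es ρ habs π hcp hdens hsep hpT ι hinj q hq hqp P hP σ hσ ?_
  rw [MonoidHom.comp_apply, hθd]
  exact galoisHom_cubic hG P hP σ hσ (chi (N * q) σ) (isOneModLeft_chi hq hqN P hP σ hσ)
    (actsOnMuAs_chi σ)

/-- **L2: the inertial type at `q` from the EVEN gate**, with a multiplier `m` of even image and
`π m` a unit. -/
theorem charpoly_inertia_of_gateEven (hM : 5 ≤ N * q) (hq : q.Prime) (hqN : ¬ q ∣ N)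
    (hqp : q ≠ p) (hG : Fermat.Agent.S43.LG1.Even.LG1HypAtEven N q p false)
    {Sg : Finset ℕ} (hpS : p ∈ Sg) (hMS : ∀ l : ℕ, l.Prime → l ∣ N * q → l ∈ Sg)
    (Tl : ℕ → 𝕋) (dmd : (ZMod (N * q))ˣ →* 𝕋)
    (θ : 𝕋 →+* Module.End ℤ_[p] (Tp p (J1 (N * q))))
    (hθT : ∀ (ℓ : ℕ) (hℓ : ℓ.Prime), ℓ ∉ Sg →
      θ (Tl ℓ) = Tp.mapEnd (p := p) (J := J1 (N * q)) (hecke1Bar (N * q) ⟨ℓ, hℓ⟩).toAddMonoidHom)
    (hθd : ∀ d : (ZMod (N * q))ˣ, θ (dmd d) = diamondTp p (N * q) d)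
    (hcomm : ∀ (t : 𝕋) (g : GQ),
      Commute (θ t) (Tp.galoisHom (p := p) (J := J1 (N * q)) GQ g))
    (ρ : GaloisRepAdic T) (habs : ρ.residual.IsAbsolutelyIrreducible) (π : 𝕋 →+* T)
    (hcp : FrobCharpolyViaD ρ Sg Tl (dmd.comp (chi (N * q))) π) (hdens : Density Sg)
    (hsep : ∀ x : T, (∀ n, x ∈ maximalIdeal T ^ n) → x = 0)
    (hpT : (p : T) ∈ maximalIdeal T) (ι : ℤ_[p] →+* T)
    (hinj : ∀ n : ℕ, ∃ n' : ℕ, ∀ t : 𝕋,
      (∀ v : Tp p (J1 (N * q)), θ t v ∈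
        (Ideal.span {(p : ℤ_[p])} ^ n') • (⊤ : Submodule ℤ_[p] (Tp p (J1 (N * q))))) →
        t ∈ Ideal.span {(p : 𝕋) ^ n})
    (m : 𝕋) (hm : IsUnit (π m))
    (hmeven : ∀ (d' : (ZMod (N * q))ˣ), IsOneModLeft N q d' → d' * d' = 1 →
      ∀ x : Tp p (J1 (N * q)), diamondTp p (N * q) d' (θ m x) = θ m x)
    (P : ValuationSubring Kb) (hP : P.LiesOverPrime q) (σ : GQ)
    (hσ : σ ∈ P.inertiaSubgroupIn ℚ) :
    LinearMap.charpoly (ρ.ρ σ) = (X - 1) * (X - C (π (dmd (chi (N * q) σ)))) := by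
  have hH := heckeModuleD_J1 hM hpS hMS Tl dmd θ hθT hθd hcomm
  refine charpoly_eq_of_heckeModuleD_mul p hpS Tl (dmd.comp (chi (N * q))) _ θ hH.cont_r
    hH.cont_dia hcomm hH.es ρ habs π hcp hdens hsep hpT ι hinj q hq hqp P hP σ hσ m hm ?_
  rw [MonoidHom.comp_apply, hθd]
  apply LinearMap.ext
  intro x
  rw [Module.End.mul_apply, LinearMap.zero_apply]
  have h := Fermat.Agent.S43.LG1.Even.galoisHom_cubic_even hG P hP σ hσ (chi (N * q) σ)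
    (isOneModLeft_chi hq hqN P hP σ hσ) (actsOnMuAs_chi σ) (θ m x)
    (fun d' h1 h2 => hmeven d' h1 h2 x)
  exact h

/-- **L2 at a prime of trivial nebentypus** (`q = 2`): the Prelude's unipotent condition. -/
theorem isUnipotentOnInertiaAt_of_gate (hM : 5 ≤ N * q) (hq : q.Prime) (hqN : ¬ q ∣ N)
    (hqp : q ≠ p) (hG : LG1HypAt N q p false)
    {Sg : Finset ℕ} (hpS : p ∈ Sg) (hMS : ∀ l : ℕ, l.Prime → l ∣ N * q → l ∈ Sg)
    (Tl : ℕ → 𝕋) (dmd : (ZMod (N * q))ˣ →* 𝕋)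
    (θ : 𝕋 →+* Module.End ℤ_[p] (Tp p (J1 (N * q))))
    (hθT : ∀ (ℓ : ℕ) (hℓ : ℓ.Prime), ℓ ∉ Sg →
      θ (Tl ℓ) = Tp.mapEnd (p := p) (J := J1 (N * q)) (hecke1Bar (N * q) ⟨ℓ, hℓ⟩).toAddMonoidHom)
    (hθd : ∀ d : (ZMod (N * q))ˣ, θ (dmd d) = diamondTp p (N * q) d)
    (hcomm : ∀ (t : 𝕋) (g : GQ),
      Commute (θ t) (Tp.galoisHom (p := p) (J := J1 (N * q)) GQ g))
    (ρ : GaloisRepAdic T) (habs : ρ.residual.IsAbsolutelyIrreducible) (π : 𝕋 →+* T)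
    (hcp : FrobCharpolyViaD ρ Sg Tl (dmd.comp (chi (N * q))) π) (hdens : Density Sg)
    (hsep : ∀ x : T, (∀ n, x ∈ maximalIdeal T ^ n) → x = 0)
    (hpT : (p : T) ∈ maximalIdeal T) (ι : ℤ_[p] →+* T)
    (hinj : ∀ n : ℕ, ∃ n' : ℕ, ∀ t : 𝕋,
      (∀ v : Tp p (J1 (N * q)), θ t v ∈
        (Ideal.span {(p : ℤ_[p])} ^ n') • (⊤ : Submodule ℤ_[p] (Tp p (J1 (N * q))))) →
        t ∈ Ideal.span {(p : 𝕋) ^ n})
    (htriv : ∀ P : ValuationSubring Kb, P.LiesOverPrime q → ∀ σ ∈ P.inertiaSubgroupIn ℚ,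
      π (dmd (chi (N * q) σ)) = 1) :
    ρ.IsUnipotentOnInertiaAt q := by
  intro P hP σ hσ
  rw [charpoly_inertia_of_gate hM hq hqN hqp hG hpS hMS Tl dmd θ hθT hθd hcomm ρ habs π hcp hdens
    hsep hpT ι hinj P hP σ hσ, htriv P hP σ hσ, map_one, sq]

end Main

end Fermat.Agent.S43.Loc2.Type
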