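/-
PROJECT R (row 37 by S43), block L2 (helper4): **THE GATE ON THE TWISTED GALOIS MODULE** (chief's
route (γ), #6210 (3)/(5): "helper4's TateGate, restated twisted").

`J1tw M m` (chief's `S43/Tw/Defs`) is `J₁(M)` with the action `σ ⋆ y = ⟨cyc σ ^ m⟩_* (σ • y)`.  For `s`
in an inertia group at `q ∥ M = N q`, `d = cyc M s` its diamond, `U = ⟨d ^ m⟩_*`, `V = ⟨d ^ (m+1)⟩_*`:

  `(s' - U) (s' - U) (s' - V) = 0`  on the `p`-power torsion of `J1tw M m` and on `T_p (J1tw M m)`,

`s'` the twisted action.  (`s' - U = U (s - 1)`, `s' - V = U (s - ⟨d⟩_*)`, and `U` commutes with `s`.)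
On the part where `⟨d⟩_* ^ (2 m + 1) = 1` (the `e_H`-part) `V = U⁻¹` : the shape
`(s' - u)² (s' - u⁻¹) = 0` of `Loc2/CubicTame.trace_eq_of_cubic_of_tame_twisted` and
`Rho/Props/Type.t_eq_of_gate`.
-/
import Fermat.Agent.S43.Loc2.Type
import Fermat.Agent.S43.Tw.Defs

set_option autoImplicit false
set_option linter.unusedSectionVars false

noncomputable section

namespace Fermat.Agent.S43.Loc2.GateTw

open Fermat.Agent.S48.B.Defs.Model
open Fermat.Agent.S30.Padic.TateModule
open Fermat.Agent.S43.Seam Fermat.Agent.S43.Tw.Defs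

local notation "Kb" => AlgebraicClosure ℚ
local notation "GQ" => (AlgebraicClosure ℚ ≃ₐ[ℚ] AlgebraicClosure ℚ)

variable {N q p : ℕ} [NeZero (N * q)]

/-- the diamond of `s` in the sense of the gate is `cyc (N q) s` -/
theorem cubicAt_cyc (hq : q.Prime) (hqN : ¬ q ∣ N) (hG : LG1HypAt N q p false)
    (A : ValuationSubring Kb) (hA : A.LiesOverPrime q) (s : GQ) (hs : s ∈ A.inertiaSubgroupIn ℚ)
    (x : J1 (N * q)) (hx : ∃ n : ℕ, p ^ n • x = 0) :
    CubicAt s (diamond1Bar (N * q) (cyc (N * q) s)) x := by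
  have h := hG A hA s hs (cyc (N * q) s)
    (Fermat.Agent.S43.Loc2.Type.isOneModLeft_chi hq hqN A hA s hs)
    (Fermat.Agent.S43.Loc2.Type.actsOnMuAs_chi s) x hx
  simpa only [Bool.false_eq_true, if_false] using h

/-- the twisted cubic from the untwisted one, formally (any level `M`) -/
theorem cubic_tw_of_cubic (M : ℕ) [NeZero M] (m : ℕ) (s : GQ) (y : J1tw M m)
    (hgate : CubicAt s (diamond1Bar M (cyc M s)) (ofTw M m y)) :
    s • (s • (s • y - diamondTw M m (cyc M s ^ (m + 1)) y)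
          - diamondTw M m (cyc M s ^ m) (s • y - diamondTw M m (cyc M s ^ (m + 1)) y))
      - diamondTw M m (cyc M s ^ m)
          (s • (s • y - diamondTw M m (cyc M s ^ (m + 1)) y)
            - diamondTw M m (cyc M s ^ m) (s • y - diamondTw M m (cyc M s ^ (m + 1)) y)) = 0 := by
  unfold CubicAt at hgate
  have hsm : ∀ z : J1tw M m,
      ofTw M m (s • z) = diamond1Bar M (cyc M s ^ m) (s • ofTw M m z) := fun z => by
    rw [ofTw_smul, twOp_apply]
  have hU : ∀ z : J1tw M m, ofTw M m (diamondTw M m (cyc M s ^ m) z)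
      = diamond1Bar M (cyc M s ^ m) (ofTw M m z) := fun z => rfl
  have hV : ∀ z : J1tw M m, ofTw M m (diamondTw M m (cyc M s ^ (m + 1)) z)
      = diamond1Bar M (cyc M s ^ m) (diamond1Bar M (cyc M s) (ofTw M m z)) := fun z => by
    show diamond1Bar M (cyc M s ^ (m + 1)) (ofTw M m z) = _
    rw [pow_succ, diamond1Bar_mul]
  have hcomm : ∀ a : J1 M, s • diamond1Bar M (cyc M s ^ m) a
      = diamond1Bar M (cyc M s ^ m) (s • a) := fun a =>
    (Fermat.Agent.S48.B.Arith.HeckeGalois1.diamond1Bar_smul M _ s a).symm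
  have c1 : ofTw M m (s • y - diamondTw M m (cyc M s ^ (m + 1)) y)
      = diamond1Bar M (cyc M s ^ m)
          (s • ofTw M m y - diamond1Bar M (cyc M s) (ofTw M m y)) := by
    rw [map_sub, hsm, hV, ← map_sub]
  have c2 : ofTw M m (s • (s • y - diamondTw M m (cyc M s ^ (m + 1)) y)
        - diamondTw M m (cyc M s ^ m) (s • y - diamondTw M m (cyc M s ^ (m + 1)) y))
      = diamond1Bar M (cyc M s ^ m) (diamond1Bar M (cyc M s ^ m)
          (s • (s • ofTw M m y - diamond1Bar M (cyc M s) (ofTw M m y))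
            - (s • ofTw M m y - diamond1Bar M (cyc M s) (ofTw M m y)))) := by
    rw [map_sub, hsm, hU, c1, hcomm, ← map_sub, ← map_sub]
  apply (ofTw M m).injective
  rw [map_zero, map_sub, hsm, hU, c2, hcomm, hcomm, ← map_sub, ← map_sub, ← map_sub, hgate,
    map_zero, map_zero, map_zero]

/-- **the twisted gate on points** -/
theorem cubic_tw_point (m : ℕ) (hq : q.Prime) (hqN : ¬ q ∣ N) (hG : LG1HypAt N q p false)
    (A : ValuationSubring Kb) (hA : A.LiesOverPrime q) (s : GQ) (hs : s ∈ A.inertiaSubgroupIn ℚ)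
    (y : J1tw (N * q) m) (hy : ∃ n : ℕ, p ^ n • y = 0) :
    s • (s • (s • y - diamondTw (N * q) m (cyc (N * q) s ^ (m + 1)) y)
          - diamondTw (N * q) m (cyc (N * q) s ^ m)
              (s • y - diamondTw (N * q) m (cyc (N * q) s ^ (m + 1)) y))
      - diamondTw (N * q) m (cyc (N * q) s ^ m)
          (s • (s • y - diamondTw (N * q) m (cyc (N * q) s ^ (m + 1)) y)
            - diamondTw (N * q) m (cyc (N * q) s ^ m)
                (s • y - diamondTw (N * q) m (cyc (N * q) s ^ (m + 1)) y)) = 0 := by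
  refine cubic_tw_of_cubic (N * q) m s y (cubicAt_cyc hq hqN hG A hA s hs _ ?_)
  obtain ⟨n, hn⟩ := hy
  exact ⟨n, by rw [← map_nsmul, hn, map_zero]⟩

/-- `⟨d⟩_*` on the Tate module of the twisted module -/
def diamondTpTw (p : ℕ) [Fact p.Prime] (M : ℕ) [NeZero M] (m : ℕ) (d : (ZMod M)ˣ) :
    Module.End ℤ_[p] (Tp p (J1tw M m)) :=
  Tp.mapEnd (p := p) (J := J1tw M m) (diamondTw M m d)

/-- **the twisted gate on the Tate module** : `(s' - U) (s' - U) (s' - V) = 0`, `U = ⟨d ^ m⟩_*`,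
`V = ⟨d ^ (m + 1)⟩_*`, `d = cyc (N q) s`. -/
theorem galoisHom_cubic_tw [Fact p.Prime] (m : ℕ) (hq : q.Prime) (hqN : ¬ q ∣ N)
    (hG : LG1HypAt N q p false) (A : ValuationSubring Kb) (hA : A.LiesOverPrime q) (s : GQ)
    (hs : s ∈ A.inertiaSubgroupIn ℚ) :
    (Tp.galoisHom (p := p) (J := J1tw (N * q) m) GQ s
          - diamondTpTw p (N * q) m (cyc (N * q) s ^ m)) *
        (Tp.galoisHom (p := p) (J := J1tw (N * q) m) GQ s
          - diamondTpTw p (N * q) m (cyc (N * q) s ^ m)) *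
      (Tp.galoisHom (p := p) (J := J1tw (N * q) m) GQ s
          - diamondTpTw p (N * q) m (cyc (N * q) s ^ (m + 1))) = 0 := by
  apply LinearMap.ext
  intro x
  apply Tp.ext
  intro k
  have h := cubic_tw_point m hq hqN hG A hA s hs (x.1 k) (Tp.isTorsion_apply x k)
  simp only [Module.End.mul_apply, LinearMap.sub_apply, LinearMap.zero_apply, map_sub, diamondTpTw]
  simp only [Tp.coe_sub_apply, Tp.coe_galoisHom_apply, Tp.coe_mapEnd_apply, Tp.coe_zero_apply]
  rw [← h]
  simp only [smul_sub, map_sub]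
  abel

end Fermat.Agent.S43.Loc2.GateTw
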