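/-
PROJECT R (row 37 by S43), block L2 (helper4): **THE GATE ON THE MODULE OF RECORD `LamH`**
(chief's route (γ); L0 vocabulary of helper11's `JH/Tw`, `JH/Part`).

`M = N q`, `q ∤ N`, `s` in an inertia group at `q`, `d = cyc M s`, `H ≤ (ℤ/M)ˣ` with
`d ^ (2 m + 1) ∈ H` for every `d` (`hHm`, the hypothesis of `JH/Part.esH`).  On
`LamH M m p H = (T_p J1tw M m)^H`:

* `galTw_cubic` : `(s' - U)² (s' - V) = 0` on `TpTw M m p`, `U = diaTwT (d ^ m)`,
  `V = diaTwT (d ^ (m + 1))` (= `Loc2/GateTw.galoisHom_cubic_tw` in helper11's names);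
* `diaH_pow_succ_eq_inv` : `diaH (d ^ (m + 1)) = diaH ((d ^ m)⁻¹)` ;
  `diaH_pow_mul_self` : `diaH (d ^ m) * diaH (d ^ m) = diaH d⁻¹` ;
  `diaH_mul_inv` : `diaH d * diaH d⁻¹ = 1` ;
* **`galH_cubic`** : `(galH s - u)² (galH s - u') = 0`, `u = diaH (d ^ m)`, `u' = diaH ((d ^ m)⁻¹)`,
  `u * u' = 1` : THE SHAPE `(s' - u)² (s' - u⁻¹) = 0` of `Rho/Props/Type.t_eq_of_gate` ;
* `gal0_cubic` : the same on the canonical `Lam0 M p` (`p` odd) ;
* `galH_unipotent_of_cyc` : if moreover `d ^ m ∈ H` (e.g. `q = 2`, or `d` of order prime to `p`)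
  then `(galH s - 1)³ = 0`.
-/
import Fermat.Agent.S43.Loc2.GateTw
import Fermat.Agent.S43.JH.Part

set_option autoImplicit false
set_option linter.unusedSectionVars false

noncomputable section

namespace Fermat.Agent.S43.Loc2.GateH

open Fermat.Agent.S48.B.Defs.Model
open Fermat.Agent.S30.Padic.TateModule
open Fermat.Agent.S43.Seam Fermat.Agent.S43.Tw.Defs
open Fermat.Agent.S43.JH.Tw Fermat.Agent.S43.JH.Part Fermat.Agent.S43.JH.PrimeToP
open Fermat.Agent.S43.Loc2.GateTw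

local notation "Kb" => AlgebraicClosure ℚ
local notation "GQ" => (AlgebraicClosure ℚ ≃ₐ[ℚ] AlgebraicClosure ℚ)

/-! ### Formal part : the diamonds on `LamH` -/

section formal

variable (M : ℕ) [NeZero M] (m : ℕ) (p : ℕ) [hp : Fact p.Prime] (H : Subgroup (ZMod M)ˣ)

/-- my `diamondTpTw` is helper11's `diaTwT` -/
theorem diamondTpTw_eq (d : (ZMod M)ˣ) : diamondTpTw p M m d = diaTwT M m p d := rfl

theorem diaH_mul_inv (d : (ZMod M)ˣ) : diaH M m p H d * diaH M m p H d⁻¹ = 1 := by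
  rw [← diaH_mul, mul_inv_cancel, diaH_one]

theorem diaH_inv_mul (d : (ZMod M)ˣ) : diaH M m p H d⁻¹ * diaH M m p H d = 1 := by
  rw [← diaH_mul, inv_mul_cancel, diaH_one]

variable {M m p H}

/-- `⟨d ^ (m + 1)⟩ = ⟨d ^ m⟩⁻¹` on `LamH` -/
theorem diaH_pow_succ_eq_inv (hHm : ∀ d : (ZMod M)ˣ, d ^ (2 * m + 1) ∈ H) (d : (ZMod M)ˣ) :
    diaH M m p H (d ^ (m + 1)) = diaH M m p H (d ^ m)⁻¹ := by
  have e : d ^ (m + 1) = (d ^ m)⁻¹ * d ^ (2 * m + 1) := by
    rw [eq_inv_mul_iff_mul_eq, ← pow_add]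
    congr 1
    omega
  rw [e, diaH_mul, diaH_of_mem M m p H (hHm d), mul_one]

/-- `⟨d ^ m⟩² = ⟨d⟩⁻¹` on `LamH` -/
theorem diaH_pow_mul_self (hHm : ∀ d : (ZMod M)ˣ, d ^ (2 * m + 1) ∈ H) (d : (ZMod M)ˣ) :
    diaH M m p H (d ^ m) * diaH M m p H (d ^ m) = diaH M m p H d⁻¹ := by
  have e : d ^ m * d ^ m = d⁻¹ * d ^ (2 * m + 1) := by
    rw [eq_inv_mul_iff_mul_eq, ← pow_add, ← pow_succ']
    congr 1
    omega
  rw [← diaH_mul, e, diaH_mul, diaH_of_mem M m p H (hHm d), mul_one]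

/-- `⟨(d ^ m)⁻¹⟩² = ⟨d⟩` on `LamH` -/
theorem diaH_inv_pow_mul_self (hHm : ∀ d : (ZMod M)ˣ, d ^ (2 * m + 1) ∈ H) (d : (ZMod M)ˣ) :
    diaH M m p H (d ^ m)⁻¹ * diaH M m p H (d ^ m)⁻¹ = diaH M m p H d := by
  have h := diaH_pow_mul_self (p := p) hHm d⁻¹
  rwa [inv_pow, inv_inv] at h

end formal

/-! ### The gate -/

section gate

variable {N q p : ℕ} [NeZero (N * q)] [hp : Fact p.Prime]

/-- **the twisted gate on `TpTw`**, in the vocabulary of `JH/Tw` -/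
theorem galTw_cubic (m : ℕ) (hq : q.Prime) (hqN : ¬ q ∣ N) (hG : LG1HypAt N q p false)
    (A : ValuationSubring Kb) (hA : A.LiesOverPrime q) (s : GQ)
    (hs : s ∈ A.inertiaSubgroupIn ℚ) :
    (galTw (N * q) m p s - diaTwT (N * q) m p (cyc (N * q) s ^ m)) *
        (galTw (N * q) m p s - diaTwT (N * q) m p (cyc (N * q) s ^ m)) *
      (galTw (N * q) m p s - diaTwT (N * q) m p (cyc (N * q) s ^ (m + 1))) = 0 :=
  galoisHom_cubic_tw m hq hqN hG A hA s hs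

/-- the gate on `LamH`, with `V = ⟨d ^ (m + 1)⟩` (no hypothesis on `H`) -/
theorem galH_cubic_succ (m : ℕ) (H : Subgroup (ZMod (N * q))ˣ) (hq : q.Prime) (hqN : ¬ q ∣ N)
    (hG : LG1HypAt N q p false)
    (A : ValuationSubring Kb) (hA : A.LiesOverPrime q) (s : GQ)
    (hs : s ∈ A.inertiaSubgroupIn ℚ) :
    (galH (N * q) m p H s - diaH (N * q) m p H (cyc (N * q) s ^ m)) *
        (galH (N * q) m p H s - diaH (N * q) m p H (cyc (N * q) s ^ m)) *
      (galH (N * q) m p H s - diaH (N * q) m p H (cyc (N * q) s ^ (m + 1))) = 0 := by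
  refine LinearMap.ext fun y => Subtype.ext ?_
  have h := LinearMap.congr_fun (galTw_cubic (p := p) m hq hqN hG A hA s hs) y.1
  simp only [Module.End.mul_apply, LinearMap.sub_apply, LinearMap.zero_apply] at h
  simp only [Module.End.mul_apply, LinearMap.sub_apply, LinearMap.zero_apply,
    Submodule.coe_sub, coe_galH_apply, coe_diaH_apply, ZeroMemClass.coe_zero]
  exact h

/-- **the gate on `LamH`** : `(s' - u)² (s' - u⁻¹) = 0`, `u = ⟨d ^ m⟩`, `d = cyc (N q) s` -/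
theorem galH_cubic (m : ℕ) (H : Subgroup (ZMod (N * q))ˣ)
    (hHm : ∀ d : (ZMod (N * q))ˣ, d ^ (2 * m + 1) ∈ H) (hq : q.Prime) (hqN : ¬ q ∣ N)
    (hG : LG1HypAt N q p false)
    (A : ValuationSubring Kb) (hA : A.LiesOverPrime q) (s : GQ)
    (hs : s ∈ A.inertiaSubgroupIn ℚ) :
    (galH (N * q) m p H s - diaH (N * q) m p H (cyc (N * q) s ^ m)) *
        (galH (N * q) m p H s - diaH (N * q) m p H (cyc (N * q) s ^ m)) *
      (galH (N * q) m p H s - diaH (N * q) m p H (cyc (N * q) s ^ m)⁻¹) = 0 := by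
  rw [← diaH_pow_succ_eq_inv hHm]
  exact galH_cubic_succ m H hq hqN hG A hA s hs

/-- the gate on the canonical module `Lam0 (N q) p` (`p` odd) -/
theorem gal0_cubic (hp2 : p ≠ 2) (hq : q.Prime) (hqN : ¬ q ∣ N)
    (hG : LG1HypAt N q p false)
    (A : ValuationSubring Kb) (hA : A.LiesOverPrime q) (s : GQ)
    (hs : s ∈ A.inertiaSubgroupIn ℚ) :
    (galH (N * q) (mTw (N * q) p) p (Hp (N * q) p) s -
          diaH (N * q) (mTw (N * q) p) p (Hp (N * q) p) (cyc (N * q) s ^ mTw (N * q) p)) *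
        (galH (N * q) (mTw (N * q) p) p (Hp (N * q) p) s -
          diaH (N * q) (mTw (N * q) p) p (Hp (N * q) p) (cyc (N * q) s ^ mTw (N * q) p)) *
      (galH (N * q) (mTw (N * q) p) p (Hp (N * q) p) s -
          diaH (N * q) (mTw (N * q) p) p (Hp (N * q) p) (cyc (N * q) s ^ mTw (N * q) p)⁻¹) = 0 :=
  galH_cubic (mTw (N * q) p) (Hp (N * q) p) (pow_twExp_mem hp2) hq hqN hG A hA s hs

/-- **unipotent inertia on `LamH`** when the diamond of `s` lies in `H` up to the twist: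
`d ^ m ∈ H` (e.g. `d` of order prime to `p` and `H ⊇` the prime-to-`p` part) -/
theorem galH_unipotent_of_mem (m : ℕ) (H : Subgroup (ZMod (N * q))ˣ)
    (hHm : ∀ d : (ZMod (N * q))ˣ, d ^ (2 * m + 1) ∈ H) (hq : q.Prime) (hqN : ¬ q ∣ N)
    (hG : LG1HypAt N q p false)
    (A : ValuationSubring Kb) (hA : A.LiesOverPrime q) (s : GQ)
    (hs : s ∈ A.inertiaSubgroupIn ℚ) (hd : cyc (N * q) s ^ m ∈ H) :
    (galH (N * q) m p H s - 1) * (galH (N * q) m p H s - 1) * (galH (N * q) m p H s - 1) = 0 := by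
  have h := galH_cubic (p := p) m H hHm hq hqN hG A hA s hs
  rwa [diaH_of_mem (N * q) m p H (H.inv_mem hd), diaH_of_mem (N * q) m p H hd] at h

end gate

end Fermat.Agent.S43.Loc2.GateH

end
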