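/-
PROJECT R (row 37 by S43), block L2 (helper4): **THE GATE ON `LamH` FROM THE `H'`-INVARIANT GATE**
(`LG1/H/Lit.LG1HypAtH N q p H'`, `H' ≤ H`), i.e. `Loc2/GateH` with the hypothesis that IG v2 /
`LG1/H/Gate.lg1HypAtH` actually delivers.

`LamH M m p H = (T_p J1tw M m)^H` : every element is `H`-invariant, hence `H'`-invariant, and the
cubic is only needed there.

* `cubicAt_cyc_H`, `cubic_tw_point_H` : the gate on `H'`-invariant points ;
* `galH_cubic_succ_H`, **`galH_cubic_H`** : `(galH s - u)² (galH s - u⁻¹) = 0` on `LamH`,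
  `u = diaH (cyc s ^ m)` ;
* `gal0_cubic_H` : on the canonical `Lam0 (N q) p` ; `galH_unipotent_of_mem_H`.
-/
import Fermat.Agent.S43.Loc2.GateH
import Fermat.Agent.S43.LG1.H.Lit

set_option autoImplicit false
set_option linter.unusedSectionVars false

noncomputable section

namespace Fermat.Agent.S43.Loc2.GateHH

open Fermat.Agent.S48.B.Defs.Model
open Fermat.Agent.S30.Padic.TateModule
open Fermat.Agent.S43.Seam Fermat.Agent.S43.Tw.Defs
open Fermat.Agent.S43.JH.Tw Fermat.Agent.S43.JH.Part Fermat.Agent.S43.JH.PrimeToP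
open Fermat.Agent.S43.Loc2.GateTw Fermat.Agent.S43.Loc2.GateH
open Fermat.Agent.S43.LG1.H.Lit

local notation "Kb" => AlgebraicClosure ℚ
local notation "GQ" => (AlgebraicClosure ℚ ≃ₐ[ℚ] AlgebraicClosure ℚ)

variable {N q p : ℕ} [NeZero (N * q)]

/-- the diamond of `s` in the sense of the gate is `cyc (N q) s` -/
theorem cubicAt_cyc_H {H' : Subgroup (ZMod (N * q))ˣ} (hq : q.Prime) (hqN : ¬ q ∣ N)
    (hG : LG1HypAtH N q p H' false)
    (A : ValuationSubring Kb) (hA : A.LiesOverPrime q) (s : GQ) (hs : s ∈ A.inertiaSubgroupIn ℚ)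
    (x : J1 (N * q)) (hx : ∃ n : ℕ, p ^ n • x = 0) (hinv : IsInvAt N q H' x) :
    CubicAt s (diamond1Bar (N * q) (cyc (N * q) s)) x := by
  have h := hG A hA s hs (cyc (N * q) s)
    (Fermat.Agent.S43.Loc2.Type.isOneModLeft_chi hq hqN A hA s hs)
    (Fermat.Agent.S43.Loc2.Type.actsOnMuAs_chi s) x hx hinv
  simpa only [Bool.false_eq_true, if_false] using h

/-- **the twisted gate on `H'`-invariant points** -/
theorem cubic_tw_point_H {H' : Subgroup (ZMod (N * q))ˣ} (m : ℕ) (hq : q.Prime) (hqN : ¬ q ∣ N)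
    (hG : LG1HypAtH N q p H' false)
    (A : ValuationSubring Kb) (hA : A.LiesOverPrime q) (s : GQ) (hs : s ∈ A.inertiaSubgroupIn ℚ)
    (y : J1tw (N * q) m) (hy : ∃ n : ℕ, p ^ n • y = 0)
    (hinv : ∀ d' ∈ H', diamondTw (N * q) m d' y = y) :
    s • (s • (s • y - diamondTw (N * q) m (cyc (N * q) s ^ (m + 1)) y)
          - diamondTw (N * q) m (cyc (N * q) s ^ m)
              (s • y - diamondTw (N * q) m (cyc (N * q) s ^ (m + 1)) y))
      - diamondTw (N * q) m (cyc (N * q) s ^ m)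
          (s • (s • y - diamondTw (N * q) m (cyc (N * q) s ^ (m + 1)) y)
            - diamondTw (N * q) m (cyc (N * q) s ^ m)
                (s • y - diamondTw (N * q) m (cyc (N * q) s ^ (m + 1)) y)) = 0 := by
  refine cubic_tw_of_cubic (N * q) m s y (cubicAt_cyc_H hq hqN hG A hA s hs _ ?_ ?_)
  · obtain ⟨n, hn⟩ := hy
    exact ⟨n, by rw [← map_nsmul, hn, map_zero]⟩
  · intro d' hd'
    exact congrArg (ofTw (N * q) m) (hinv d' hd')

variable [hp : Fact p.Prime]

/-- the gate on `LamH`, with `V = ⟨d ^ (m + 1)⟩` -/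
theorem galH_cubic_succ_H (m : ℕ) {H H' : Subgroup (ZMod (N * q))ˣ} (hH : H' ≤ H)
    (hq : q.Prime) (hqN : ¬ q ∣ N) (hG : LG1HypAtH N q p H' false)
    (A : ValuationSubring Kb) (hA : A.LiesOverPrime q) (s : GQ)
    (hs : s ∈ A.inertiaSubgroupIn ℚ) :
    (galH (N * q) m p H s - diaH (N * q) m p H (cyc (N * q) s ^ m)) *
        (galH (N * q) m p H s - diaH (N * q) m p H (cyc (N * q) s ^ m)) *
      (galH (N * q) m p H s - diaH (N * q) m p H (cyc (N * q) s ^ (m + 1))) = 0 := by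
  refine LinearMap.ext fun y => Subtype.ext ?_
  apply Tp.ext
  intro k
  have hinv : ∀ d' ∈ H', diamondTw (N * q) m d' (y.1.1 k) = y.1.1 k := by
    intro d' hd'
    have h1 := y.2 d' (hH hd')
    exact congrArg (fun z : TpTw (N * q) m p => z.1 k) h1
  have h := cubic_tw_point_H m hq hqN hG A hA s hs (y.1.1 k) (Tp.isTorsion_apply y.1 k) hinv
  simp only [Module.End.mul_apply, LinearMap.sub_apply, LinearMap.zero_apply,
    Submodule.coe_sub, coe_galH_apply, coe_diaH_apply, ZeroMemClass.coe_zero, map_sub]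
  simp only [galTw, diaTwT, Tp.coe_sub_apply, Tp.coe_galoisHom_apply, Tp.coe_mapEnd_apply]
  trans (0 : J1tw (N * q) m)
  · rw [← h]
    simp only [smul_sub, map_sub]
    abel
  · rfl

/-- **the gate on `LamH`** : `(s' - u)² (s' - u⁻¹) = 0`, `u = ⟨d ^ m⟩`, `d = cyc (N q) s` -/
theorem galH_cubic_H (m : ℕ) {H H' : Subgroup (ZMod (N * q))ˣ} (hH : H' ≤ H)
    (hHm : ∀ d : (ZMod (N * q))ˣ, d ^ (2 * m + 1) ∈ H) (hq : q.Prime) (hqN : ¬ q ∣ N)
    (hG : LG1HypAtH N q p H' false)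
    (A : ValuationSubring Kb) (hA : A.LiesOverPrime q) (s : GQ)
    (hs : s ∈ A.inertiaSubgroupIn ℚ) :
    (galH (N * q) m p H s - diaH (N * q) m p H (cyc (N * q) s ^ m)) *
        (galH (N * q) m p H s - diaH (N * q) m p H (cyc (N * q) s ^ m)) *
      (galH (N * q) m p H s - diaH (N * q) m p H (cyc (N * q) s ^ m)⁻¹) = 0 := by
  rw [← diaH_pow_succ_eq_inv hHm]
  exact galH_cubic_succ_H m hH hq hqN hG A hA s hs

/-- the gate on the canonical module `Lam0 (N q) p` (`p` odd) -/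
theorem gal0_cubic_H {H' : Subgroup (ZMod (N * q))ˣ} (hH : H' ≤ Hp (N * q) p) (hp2 : p ≠ 2)
    (hq : q.Prime) (hqN : ¬ q ∣ N) (hG : LG1HypAtH N q p H' false)
    (A : ValuationSubring Kb) (hA : A.LiesOverPrime q) (s : GQ)
    (hs : s ∈ A.inertiaSubgroupIn ℚ) :
    (galH (N * q) (mTw (N * q) p) p (Hp (N * q) p) s -
          diaH (N * q) (mTw (N * q) p) p (Hp (N * q) p) (cyc (N * q) s ^ mTw (N * q) p)) *
        (galH (N * q) (mTw (N * q) p) p (Hp (N * q) p) s -
          diaH (N * q) (mTw (N * q) p) p (Hp (N * q) p) (cyc (N * q) s ^ mTw (N * q) p)) *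
      (galH (N * q) (mTw (N * q) p) p (Hp (N * q) p) s -
          diaH (N * q) (mTw (N * q) p) p (Hp (N * q) p) (cyc (N * q) s ^ mTw (N * q) p)⁻¹) = 0 :=
  galH_cubic_H (mTw (N * q) p) hH (pow_twExp_mem hp2) hq hqN hG A hA s hs

/-- **unipotent inertia on `LamH`** when `d ^ m ∈ H` -/
theorem galH_unipotent_of_mem_H (m : ℕ) {H H' : Subgroup (ZMod (N * q))ˣ} (hH : H' ≤ H)
    (hHm : ∀ d : (ZMod (N * q))ˣ, d ^ (2 * m + 1) ∈ H) (hq : q.Prime) (hqN : ¬ q ∣ N)
    (hG : LG1HypAtH N q p H' false)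
    (A : ValuationSubring Kb) (hA : A.LiesOverPrime q) (s : GQ)
    (hs : s ∈ A.inertiaSubgroupIn ℚ) (hd : cyc (N * q) s ^ m ∈ H) :
    (galH (N * q) m p H s - 1) * (galH (N * q) m p H s - 1) * (galH (N * q) m p H s - 1) = 0 := by
  have h := galH_cubic_H (p := p) m hH hHm hq hqN hG A hA s hs
  rwa [diaH_of_mem (N * q) m p H (H.inv_mem hd), diaH_of_mem (N * q) m p H hd] at h

end Fermat.Agent.S43.Loc2.GateHH
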