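/-
PROJECT R (row 37 by S43), block L2 (helper4): **THE INERTIAL TYPE FROM THE CUBIC OF THE GATE AND THE
TAME RELATION, OVER AN ARBITRARY COMMUTATIVE RING (nilpotents allowed).**

Let `R` be a `2 × 2` matrix over a commutative ring `T` with `det R = δ` a unit and
`(R - 1)² (R - δ) = 0` (the cubic of the gate, transported to `M₂(T)`).  Put `w := tr R - 1 - δ`.
Cayley-Hamilton gives `w • ((tr R - 1) R - δ) = 0`, hence (adjugate) `w² = 0`, `w • R = w • 1`,
`w δ = w` -- and NOTHING MORE: `R = diag(1 + z, (1 + z)⁻¹)` over `ℤ[z]/(z³)`, `δ = 1`, satisfies the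
cubic with `w = z² ≠ 0`.  Over a reduced ring `w = 0` (`LG1/Char2`).  Without reducedness the missing
input is the TAME RELATION `ρ(φ) ρ(s) ρ(φ)⁻¹ = ρ(s)^q` (`φ` a Frobenius at `q`), i.e.
`tr (R ^ q) = tr R`, together with `δ ^ q = δ` (`δ` comes from `(ℤ/q)ˣ`): with `w² = 0`, `w δ = w`
one has `tr (R ^ n) = 1 + δ ^ n + n² w` for every `n`, so `(q² - 1) w = 0`, and `w = 0` as soon as
`q² - 1` is a non-zero-divisor of `T` (e.g. `T ⊆ End_𝒪(Λ)`, `Λ` torsion free).

* `defect_sq`, `defect_smul`, `defect_mul` : the three consequences of the cubic;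
* `trace_pow` : `tr (R ^ n) = 1 + δ ^ n + n² w`;
* `trace_eq_of_cubic_of_tame`, `charpoly_eq_of_cubic_of_tame` : the type `(X - 1)(X - δ)`;
* `trace_eq_of_cubic_of_tame_twisted` : `det A = 1`, `(A - u)² (A - u⁻¹) = 0`, `tr (A ^ q) = tr A`,
  `u ^ q = u` : `tr A = u + u⁻¹`;
* `charpoly_end_eq_of_cubic_of_tame`, `charpoly_end_eq_of_cubic_of_conj` : the same for an
  endomorphism of a free module of rank two (the second one with the conjugacy `g f = f ^ q g`).
-/
import Fermat.Agent.S43.LG1.Char2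

set_option autoImplicit false

namespace Fermat.Agent.S43.Loc2.CubicTame

open Matrix Polynomial
open Fermat.Agent.S43.LG1.Char2

variable {T : Type*} [CommRing T]

/-! ### The three consequences of the cubic -/

/-- `w² = 0` -/
theorem defect_sq (R : Matrix (Fin 2) (Fin 2) T) (δ : T) (hδ : IsUnit δ) (hdet : R.det = δ)
    (hcube : (R - 1) * (R - 1) * (R - δ • (1 : Matrix (Fin 2) (Fin 2) T)) = 0) :
    defect R δ * defect R δ = 0 := by
  have h1 : defect R δ • cof R δ = 0 := by rw [← cube_eq_smul R δ hdet, hcube]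
  have h2 : (defect R δ • cof R δ) * (cof R δ).adjugate = 0 := by rw [h1, zero_mul]
  rw [smul_mul_assoc, mul_adjugate, det_cof R δ hdet, smul_smul] at h2
  have h3 := congrFun (congrFun h2 0) 0
  rw [Matrix.smul_apply, Matrix.one_apply_eq, Matrix.zero_apply, smul_eq_mul, mul_one] at h3
  have h4 : δ * (defect R δ * defect R δ) = 0 := by linear_combination - h3
  exact (hδ.mul_right_eq_zero).mp h4

/-- `w • R = w • 1` -/
theorem defect_smul (R : Matrix (Fin 2) (Fin 2) T) (δ : T) (hδ : IsUnit δ) (hdet : R.det = δ)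
    (hcube : (R - 1) * (R - 1) * (R - δ • (1 : Matrix (Fin 2) (Fin 2) T)) = 0) :
    defect R δ • R = defect R δ • (1 : Matrix (Fin 2) (Fin 2) T) := by
  have h1 : defect R δ • cof R δ = 0 := by rw [← cube_eq_smul R δ hdet, hcube]
  have hw := defect_sq R δ hδ hdet hcube
  have ht : R.trace - 1 = δ + defect R δ := by unfold defect; ring
  have h2 : δ • (defect R δ • R - defect R δ • (1 : Matrix (Fin 2) (Fin 2) T)) = 0 := by
    have h3 : defect R δ • cof R δ
        = δ • (defect R δ • R - defect R δ • (1 : Matrix (Fin 2) (Fin 2) T))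
          + (defect R δ * defect R δ) • R := by
      unfold cof
      rw [ht]
      ext i j
      simp only [Matrix.smul_apply, Matrix.sub_apply, Matrix.add_apply, smul_eq_mul]
      ring
    rw [h3, hw, zero_smul, add_zero] at h1
    exact h1
  exact sub_eq_zero.mp ((hδ.smul_eq_zero).mp h2)

/-- `w δ = w` -/
theorem defect_mul (R : Matrix (Fin 2) (Fin 2) T) (δ : T) (hδ : IsUnit δ) (hdet : R.det = δ)
    (hcube : (R - 1) * (R - 1) * (R - δ • (1 : Matrix (Fin 2) (Fin 2) T)) = 0) :
    defect R δ * δ = defect R δ := by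
  have h1 := congrArg Matrix.trace (defect_smul R δ hδ hdet hcube)
  rw [trace_smul, trace_smul, trace_one, Fintype.card_fin, smul_eq_mul, smul_eq_mul] at h1
  have hw := defect_sq R δ hδ hdet hcube
  have ht : R.trace = 1 + δ + defect R δ := by unfold defect; ring
  rw [ht] at h1
  push_cast at h1
  linear_combination h1 - hw

/-! ### The powers of `R` -/

/-- Cayley-Hamilton for `2 × 2` matrices -/
theorem mul_self_eq (R : Matrix (Fin 2) (Fin 2) T) :
    R * R = R.trace • R - R.det • (1 : Matrix (Fin 2) (Fin 2) T) := by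
  ext i j
  fin_cases i <;> fin_cases j <;>
    simp [Matrix.mul_apply, Fin.sum_univ_two, trace_fin_two, det_fin_two,
      Matrix.sub_apply, Matrix.smul_apply] <;>
    ring

/-- the shape of `R ^ n` when `R² = (1 + δ + w) R - δ`, `w δ = w`, `w² = 0` -/
theorem exists_pow_eq (R : Matrix (Fin 2) (Fin 2) T) (δ w : T)
    (hCH : R * R = (1 + δ + w) • R - δ • (1 : Matrix (Fin 2) (Fin 2) T))
    (hwδ : w * δ = w) (hw : w * w = 0) (n : ℕ) :
    ∃ a b γ : T, R ^ n = a • R + b • (1 : Matrix (Fin 2) (Fin 2) T) ∧ a + b = 1 + γ * w ∧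
      a * δ + b = δ ^ n + γ * w ∧ a * w = n * w ∧ 2 * γ + n = (n : T) ^ 2 := by
  induction n with
  | zero =>
    refine ⟨0, 1, 0, ?_, ?_, ?_, ?_, ?_⟩
    · rw [pow_zero, zero_smul, zero_add, one_smul]
    · ring
    · ring
    · simp
    · simp
  | succ n ih =>
    obtain ⟨a, b, γ, h0, h1, h2, h3, h4⟩ := ih
    refine ⟨a * (1 + δ + w) + b, - (a * δ), γ + n, ?_, ?_, ?_, ?_, ?_⟩
    · rw [pow_succ, h0, add_mul, smul_mul_assoc, smul_mul_assoc, one_mul, hCH, smul_sub, smul_smul,
        smul_smul, add_smul, neg_smul]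
      abel
    · linear_combination h1 + h3
    · linear_combination δ * h2 + h3 + (a + γ) * hwδ
    · push_cast
      linear_combination h3 + a * hwδ + w * h1 + (a + γ) * hw
    · push_cast
      linear_combination h4

/-- **`tr (R ^ n) = 1 + δ ^ n + n² w`** -/
theorem trace_pow (R : Matrix (Fin 2) (Fin 2) T) (δ : T) (hδ : IsUnit δ) (hdet : R.det = δ)
    (hcube : (R - 1) * (R - 1) * (R - δ • (1 : Matrix (Fin 2) (Fin 2) T)) = 0) (n : ℕ) :
    (R ^ n).trace = 1 + δ ^ n + (n : T) ^ 2 * defect R δ := by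
  have hw := defect_sq R δ hδ hdet hcube
  have hwδ := defect_mul R δ hδ hdet hcube
  have ht : R.trace = 1 + δ + defect R δ := by unfold defect; ring
  have hCH : R * R = (1 + δ + defect R δ) • R - δ • (1 : Matrix (Fin 2) (Fin 2) T) := by
    rw [mul_self_eq R, hdet, ← ht]
  obtain ⟨a, b, γ, h0, h1, h2, h3, h4⟩ := exists_pow_eq R δ (defect R δ) hCH hwδ hw n
  rw [h0, trace_add, trace_smul, trace_smul, trace_one, Fintype.card_fin, smul_eq_mul, smul_eq_mul,
    ht]
  push_cast
  linear_combination h1 + h2 + h3 + defect R δ * h4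

/-! ### The type -/

/-- **the trace from the cubic and the tame relation** -/
theorem trace_eq_of_cubic_of_tame (R : Matrix (Fin 2) (Fin 2) T) (δ : T) (hδ : IsUnit δ)
    (hdet : R.det = δ)
    (hcube : (R - 1) * (R - 1) * (R - δ • (1 : Matrix (Fin 2) (Fin 2) T)) = 0) (q : ℕ)
    (hδq : δ ^ q = δ) (htame : (R ^ q).trace = R.trace)
    (htf : ∀ x : T, ((q : T) ^ 2 - 1) * x = 0 → x = 0) : R.trace = 1 + δ := by
  have h1 := trace_pow R δ hδ hdet hcube q
  rw [htame, hδq] at h1
  have h2 : defect R δ = 0 := by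
    apply htf
    unfold defect at h1 ⊢
    linear_combination - h1
  unfold defect at h2
  linear_combination h2

/-- **the characteristic polynomial from the cubic and the tame relation** -/
theorem charpoly_eq_of_cubic_of_tame (R : Matrix (Fin 2) (Fin 2) T) (δ : T) (hδ : IsUnit δ)
    (hdet : R.det = δ)
    (hcube : (R - 1) * (R - 1) * (R - δ • (1 : Matrix (Fin 2) (Fin 2) T)) = 0) (q : ℕ)
    (hδq : δ ^ q = δ) (htame : (R ^ q).trace = R.trace)
    (htf : ∀ x : T, ((q : T) ^ 2 - 1) * x = 0 → x = 0) :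
    R.charpoly = (X - C 1) * (X - C δ) := by
  nontriviality T
  rw [charpoly_fin_two, trace_eq_of_cubic_of_tame R δ hδ hdet hcube q hδq htame htf, hdet]
  simp only [map_add, map_one]
  ring

/-- **the twisted form**: `det A = 1`, `(A - u)² (A - v) = 0` with `u v = 1`, `u ^ q = u`,
`tr (A ^ q) = tr A` : `tr A = u + v`. -/
theorem trace_eq_of_cubic_of_tame_twisted (A : Matrix (Fin 2) (Fin 2) T) (u v : T)
    (huv : u * v = 1) (hdet : A.det = 1)
    (hcube : (A - u • (1 : Matrix (Fin 2) (Fin 2) T)) * (A - u • (1 : Matrix (Fin 2) (Fin 2) T)) *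
      (A - v • (1 : Matrix (Fin 2) (Fin 2) T)) = 0) (q : ℕ)
    (huq : u ^ q = u) (htame : (A ^ q).trace = A.trace)
    (htf : ∀ x : T, ((q : T) ^ 2 - 1) * x = 0 → x = 0) : A.trace = u + v := by
  have hvu : v * u = 1 := by rw [mul_comm]; exact huv
  have hvq : v ^ q = v := by
    have h1 : v ^ q * u = 1 := by
      calc v ^ q * u = v ^ q * u ^ q := by rw [huq]
        _ = (v * u) ^ q := by rw [mul_pow]
        _ = 1 := by rw [hvu, one_pow]
    calc v ^ q = v ^ q * (u * v) := by rw [huv, mul_one]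
      _ = (v ^ q * u) * v := by ring
      _ = v := by rw [h1, one_mul]
  have hδ : IsUnit (v * v) := ⟨⟨v * v, u * u, by linear_combination (u * v + 1) * hvu,
    by linear_combination (u * v + 1) * huv⟩, rfl⟩
  have hR1 : v • A - 1 = v • (A - u • (1 : Matrix (Fin 2) (Fin 2) T)) := by
    rw [smul_sub, smul_smul, hvu, one_smul]
  have hR2 : v • A - (v * v) • (1 : Matrix (Fin 2) (Fin 2) T)
      = v • (A - v • (1 : Matrix (Fin 2) (Fin 2) T)) := by
    rw [smul_sub, smul_smul]
  have h1 := trace_eq_of_cubic_of_tame (v • A) (v * v) hδ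
    (by rw [det_smul, Fintype.card_fin, hdet, mul_one, sq]) (by
      rw [hR1, hR2, smul_mul_smul_comm, smul_mul_smul_comm, hcube, smul_zero]) q
    (by rw [mul_pow, hvq]) (by rw [_root_.smul_pow, trace_smul, trace_smul, hvq, htame]) htf
  rw [trace_smul, smul_eq_mul] at h1
  linear_combination u * h1 + (v - A.trace) * huv

/-! ### The same for an endomorphism of a free module of rank two -/

section End

variable {V : Type*} [AddCommGroup V] [Module T V] [Module.Free T V] [Module.Finite T V]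

/-- **`charpoly f = (X - 1)(X - δ)`** for an endomorphism `f` of a free module of rank two with
`det f = δ` a unit, `(f - 1)² (f - δ) = 0`, `tr (f ^ q) = tr f`, `δ ^ q = δ`, `T` arbitrary with
`q² - 1` a non-zero-divisor. -/
theorem charpoly_end_eq_of_cubic_of_tame (h2 : Module.finrank T V = 2) (f : Module.End T V) (δ : T)
    (hδ : IsUnit δ) (hdet : LinearMap.det f = δ)
    (hcube : (f - 1) * (f - 1) * (f - δ • (1 : Module.End T V)) = 0) (q : ℕ) (hδq : δ ^ q = δ)
    (htame : LinearMap.trace T V (f ^ q) = LinearMap.trace T V f)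
    (htf : ∀ x : T, ((q : T) ^ 2 - 1) * x = 0 → x = 0) :
    LinearMap.charpoly f = (X - C 1) * (X - C δ) := by
  classical
  nontriviality T
  let b := Module.finBasisOfFinrankEq T V h2
  have hR : (LinearMap.toMatrix b b f).det = δ := by rw [LinearMap.det_toMatrix b, hdet]
  have hc : (LinearMap.toMatrix b b f - 1) * (LinearMap.toMatrix b b f - 1)
      * (LinearMap.toMatrix b b f - δ • (1 : Matrix (Fin 2) (Fin 2) T)) = 0 := by
    have h := congrArg (LinearMap.toMatrix b b) hcube
    rw [LinearMap.toMatrix_mul, LinearMap.toMatrix_mul, map_sub, map_sub, map_smul,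
      LinearMap.toMatrix_one, map_zero] at h
    exact h
  have hpow : LinearMap.toMatrix b b (f ^ q) = LinearMap.toMatrix b b f ^ q := by
    have h := map_pow (LinearMap.toMatrixAlgEquiv b) f q
    exact h
  have ht : (LinearMap.toMatrix b b f ^ q).trace = (LinearMap.toMatrix b b f).trace := by
    rw [← hpow, ← LinearMap.trace_eq_matrix_trace T b, ← LinearMap.trace_eq_matrix_trace T b, htame]
  rw [← LinearMap.charpoly_toMatrix f b]
  exact charpoly_eq_of_cubic_of_tame _ δ hδ hR hc q hδq ht htf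

/-- the same with the conjugacy `g f = f ^ q g`, `g` invertible (`g = ρ(φ)`, `f = ρ(s)`) -/
theorem charpoly_end_eq_of_cubic_of_conj (h2 : Module.finrank T V = 2) (f g g' : Module.End T V)
    (hgg' : g * g' = 1) (δ : T) (hδ : IsUnit δ) (hdet : LinearMap.det f = δ)
    (hcube : (f - 1) * (f - 1) * (f - δ • (1 : Module.End T V)) = 0) (q : ℕ) (hδq : δ ^ q = δ)
    (hconj : g * f = f ^ q * g)
    (htf : ∀ x : T, ((q : T) ^ 2 - 1) * x = 0 → x = 0) :
    LinearMap.charpoly f = (X - C 1) * (X - C δ) := by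
  refine charpoly_end_eq_of_cubic_of_tame h2 f δ hδ hdet hcube q hδq ?_ htf
  have h1 : f ^ q = g * f * g' := by
    rw [hconj, mul_assoc, hgg', mul_one]
  rw [h1, mul_assoc, LinearMap.trace_mul_comm, mul_assoc]
  have h3 : g' * g = 1 := by
    have hdetg : IsUnit (LinearMap.det g) := by
      have := congrArg LinearMap.det hgg'
      rw [map_mul, map_one] at this
      exact IsUnit.of_mul_eq_one _ this
    have hu : IsUnit g := (LinearMap.isUnit_iff_isUnit_det g).mpr hdetg
    obtain ⟨e, he⟩ := hu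
    have : g' = ↑e⁻¹ := by
      have h5 : (↑e⁻¹ : Module.End T V) * (g * g') = ↑e⁻¹ := by rw [hgg', mul_one]
      rw [← mul_assoc, ← he, Units.inv_mul, one_mul] at h5
      exact h5
    rw [this, ← he, Units.inv_mul]
  rw [h3, mul_one]

end End

end Fermat.Agent.S43.Loc2.CubicTame
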